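import Fermat.Agent.AbVar.Factorial.UFD

/-!
# Local rings of smooth integral schemes over an algebraically closed field

They are integrally closed at all points and factorial at closed points: transfer of the statements
on smooth affine algebras to the stalks.
-/

set_option autoImplicit false

universe u

noncomputable section

open CategoryTheory AlgebraicGeometry

namespace Fermat.Agent.AbVar.Local

variable {K : Type u} [Field K] {X : Scheme.{u}} [IsIntegral X] (f : X ⟶ Spec (CommRingCat.of K))

/-- The scalars in the sections on an open. -/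
def baseSections (W : X.Opens) : CommRingCat.of K ⟶ Γ(X, W) :=
  (Scheme.ΓSpecIso (CommRingCat.of K)).inv ≫ f.appLE ⊤ W (by simp)

omit [IsIntegral X] in
theorem smooth_baseSections [Smooth f] {W : X.Opens} (hW : IsAffineOpen W) :
    (baseSections f W).hom.Smooth := by
  have h : (f.appLE ⊤ W (by simp)).hom.Smooth := f.smooth_appLE (isAffineOpen_top _) hW _
  exact RingHom.Smooth.respectsIso.2 _
    (Scheme.ΓSpecIso (CommRingCat.of K)).commRingCatIsoToRingEquiv.symm h

variable [IsAlgClosed K] [Smooth f]

include f in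
/-- Local rings at closed points of a smooth scheme over the field are factorial. -/
theorem uniqueFactorizationMonoid_stalk_of_isClosed (x : X) (hx : IsClosed ({x} : Set X)) :
    UniqueFactorizationMonoid (X.presheaf.stalk x) := by
  obtain ⟨_, ⟨W, hW, rfl⟩, hxW, -⟩ :=
    X.isBasis_affineOpens.exists_subset_of_mem_open (Set.mem_univ x) isOpen_univ
  have : Nonempty W := ⟨⟨x, hxW⟩⟩
  let : Algebra K Γ(X, W) := (baseSections f W).hom.toAlgebra
  have hs : Algebra.Smooth K Γ(X, W) := smooth_baseSections f hW
  have : (hW.primeIdealOf ⟨x, hxW⟩).asIdeal.IsMaximal :=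
    hW.primeIdealOf_isMaximal_of_isClosed ⟨x, hxW⟩ hx
  let := X.presheaf.algebra_section_stalk (⟨x, hxW⟩ : W)
  have := hW.isLocalization_stalk ⟨x, hxW⟩
  exact (IsLocalization.algEquiv (hW.primeIdealOf ⟨x, hxW⟩).asIdeal.primeCompl
    (Localization.AtPrime (hW.primeIdealOf ⟨x, hxW⟩).asIdeal)
    (X.presheaf.stalk x)).toMulEquiv.uniqueFactorizationMonoid (uniqueFactorizationMonoid K _)

include f in
/-- Local rings of a smooth integral scheme over the field are integrally closed. -/
theorem isIntegrallyClosed_stalk_of_smooth (x : X) : IsIntegrallyClosed (X.presheaf.stalk x) := by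
  obtain ⟨_, ⟨W, hW, rfl⟩, hxW, -⟩ :=
    X.isBasis_affineOpens.exists_subset_of_mem_open (Set.mem_univ x) isOpen_univ
  have : Nonempty W := ⟨⟨x, hxW⟩⟩
  let : Algebra K Γ(X, W) := (baseSections f W).hom.toAlgebra
  have hs : Algebra.Smooth K Γ(X, W) := smooth_baseSections f hW
  let := X.presheaf.algebra_section_stalk (⟨x, hxW⟩ : W)
  have := hW.isLocalization_stalk ⟨x, hxW⟩
  have := isIntegrallyClosed_atPrime K (hW.primeIdealOf ⟨x, hxW⟩).asIdeal
  exact IsIntegrallyClosed.of_equiv (IsLocalization.algEquiv
    (hW.primeIdealOf ⟨x, hxW⟩).asIdeal.primeCompl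
    (Localization.AtPrime (hW.primeIdealOf ⟨x, hxW⟩).asIdeal) (X.presheaf.stalk x)).toRingEquiv

end Fermat.Agent.AbVar.Local

end
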