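import Fermat.Agent.AbVar.Rational

/-!
# A Cartier divisor whose complement is an affine open

Let `X` be an integral proper scheme over a field whose local rings at closed points are factorial.
For the generators of the functions on a non-empty affine open `U`, the ideal of common denominators
at a closed point is principal and its generator keeps this property on a neighbourhood. These
generators form a divisor with complement exactly `U` (`exists_divData_of_factorial`).
-/

set_option autoImplicit false

universe u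

noncomputable section

open CategoryTheory CategoryTheory.Limits AlgebraicGeometry TopologicalSpace

namespace Fermat.Agent.AbVar

namespace Denom

/-- In a factorial ring the ideal of common denominators of finitely many fractions is principal. -/
theorem exists_generator {R F : Type*} [CommRing R] [IsDomain R] [UniqueFactorizationMonoid R]
    [Field F] [Algebra R F] [IsFractionRing R F] (S : Finset F) :
    ∃ h : R, h ≠ 0 ∧ ∀ φ : R,
      (∀ a ∈ S, algebraMap R F φ * a ∈ Set.range (algebraMap R F)) ↔ h ∣ φ := by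
  classical
  induction S using Finset.induction_on with
  | empty => exact ⟨1, one_ne_zero, fun φ => by simp⟩
  | @insert a S _ ih =>
    obtain ⟨h, h0, hh⟩ := ih
    obtain ⟨p, q, hpq, he⟩ := IsFractionRing.exists_reduced_fraction (A := R) (algebraMap R F h * a)
    have hq : algebraMap R F (q : R) ≠ 0 := IsFractionRing.to_map_ne_zero_of_mem_nonZeroDivisors q.2
    rw [IsFractionRing.mk'_eq_div, div_eq_iff hq] at he
    refine ⟨h * (q : R), mul_ne_zero h0 (nonZeroDivisors.ne_zero q.2), fun φ => ⟨fun hφ => ?_, ?_⟩⟩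
    · obtain ⟨r, rfl⟩ := (hh φ).mp fun b hb => hφ b (Finset.mem_insert_of_mem hb)
      obtain ⟨c, hc⟩ := hφ a (Finset.mem_insert_self a S)
      have h1 : r * p = c * (q : R) := IsFractionRing.injective R F (by
        rw [map_mul, map_mul, he, hc, map_mul]
        ring)
      exact mul_dvd_mul_left h (hpq.symm.dvd_of_dvd_mul_right ⟨c, h1.trans (mul_comm _ _)⟩)
    · rintro ⟨r, rfl⟩ b hb
      rcases Finset.mem_insert.mp hb with rfl | hb
      · refine ⟨r * p, ?_⟩
        rw [map_mul, map_mul, map_mul, he]
        ring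
      · exact (hh _).mpr (dvd_mul_of_dvd_left (dvd_mul_right h (q : R)) r) b hb

end Denom

variable {X : Scheme.{u}} [IsIntegral X]

theorem ffVal_mem_localRing {W : X.Opens} (y : X) (hy : y ∈ W) (s : Γ(X, W)) :
    ffVal y hy s ∈ localRing y :=
  ⟨_, rfl⟩

theorem exists_nhds_localRing {φ : X.functionField} {x : X} (h : φ ∈ localRing x) :
    ∃ V : X.Opens, x ∈ V ∧ ∀ y ∈ V, φ ∈ localRing y := by
  obtain ⟨a, rfl⟩ := h
  obtain ⟨V, hx, s, rfl⟩ := X.presheaf.exists_germ_eq a
  refine ⟨V, hx, fun y hy => ?_⟩
  rw [show algebraMap (X.presheaf.stalk x) X.functionField (X.presheaf.germ V x hx s) =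
    ffVal y hy s from
    ffVal_indep x y hx hy s]
  exact ffVal_mem_localRing y hy s

theorem exists_nhds_forall_localRing (G : Finset X.functionField) {x : X}
    (h : ∀ φ ∈ G, φ ∈ localRing x) :
    ∃ V : X.Opens, x ∈ V ∧ ∀ y ∈ V, ∀ φ ∈ G, φ ∈ localRing y := by
  classical
  induction G using Finset.induction_on with
  | empty => exact ⟨⊤, trivial, fun y _ φ hφ => absurd hφ (Finset.notMem_empty φ)⟩
  | @insert a S _ ih =>
    obtain ⟨V, hV, hV'⟩ := ih fun φ hφ => h φ (Finset.mem_insert_of_mem hφ)
    obtain ⟨V₂, hV₂, hV₂'⟩ := exists_nhds_localRing (h a (Finset.mem_insert_self a S))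
    refine ⟨V ⊓ V₂, ⟨hV, hV₂⟩, fun y hy φ hφ => ?_⟩
    rcases Finset.mem_insert.mp hφ with rfl | hφ
    · exact hV₂' y hy.2
    · exact hV' y hy.1 φ hφ

/-- A common denominator on an affine open. -/
theorem exists_common_den {N : X.Opens} (hN : IsAffineOpen N) {y : X} (hy : y ∈ N)
    (F : Finset X.functionField) (hF : ∀ φ ∈ F, φ ∈ localRing y) :
    ∃ s : Γ(X, N), IsUnit (X.presheaf.germ N y hy s) ∧
      ∀ φ ∈ F, ∃ b : Γ(X, N), ffVal y hy b = ffVal y hy s * φ := by
  classical
  induction F using Finset.induction_on with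
  | empty => exact ⟨1, by rw [map_one]; exact isUnit_one,
      fun φ hφ => absurd hφ (Finset.notMem_empty φ)⟩
  | @insert a S _ ih =>
    obtain ⟨s, hs, hs'⟩ := ih fun φ hφ => hF φ (Finset.mem_insert_of_mem hφ)
    obtain ⟨α, rfl⟩ := hF a (Finset.mem_insert_self a S)
    let := TopCat.Presheaf.algebra_section_stalk X.presheaf (⟨y, hy⟩ : N)
    have := hN.isLocalization_stalk ⟨y, hy⟩
    obtain ⟨⟨b, t⟩, hb⟩ := IsLocalization.surj (hN.primeIdealOf ⟨y, hy⟩).asIdeal.primeCompl α
    have ht : IsUnit (X.presheaf.germ N y hy (t : Γ(X, N))) :=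
      IsLocalization.map_units (X.presheaf.stalk y) t
    refine ⟨s * t, by rw [map_mul]; exact hs.mul ht, fun φ hφ => ?_⟩
    rcases Finset.mem_insert.mp hφ with rfl | hφ
    · refine ⟨s * b, ?_⟩
      have h1 : ffVal y hy b = algebraMap _ X.functionField α * ffVal y hy (t : Γ(X, N)) :=
        (congrArg (algebraMap (X.presheaf.stalk y) X.functionField) hb.symm).trans (map_mul _ _ _)
      rw [map_mul, map_mul, h1]
      ring
    · obtain ⟨c, hc⟩ := hs' φ hφ
      refine ⟨c * t, ?_⟩
      rw [map_mul, map_mul, hc]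
      ring

/-- `H` generates the denominators of the functions in `S` at the point. -/
def IsDenomAt (S : Finset X.functionField) (y : X) (H : X.functionField) : Prop :=
  H ≠ 0 ∧ H ∈ localRing y ∧ (∀ a ∈ S, H * a ∈ localRing y) ∧
    ∀ φ : X.functionField, φ ∈ localRing y → (∀ a ∈ S, φ * a ∈ localRing y) → φ / H ∈ localRing y

theorem IsDenomAt.div_mem {S : Finset X.functionField} {y : X} {H H' : X.functionField}
    (h : IsDenomAt S y H) (h' : IsDenomAt S y H') : H / H' ∈ localRing y :=
  h'.2.2.2 H h.2.1 h.2.2.1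

/-- If the generators of the ideal `J` of denominators on `N` are divisible by `H` at `y`, so is
every denominator at `y`. -/
private theorem div_mem_localRing_of_generators {N : X.Opens} (hN : IsAffineOpen N) {x y : X}
    (hxN' : x ∈ N) (hy : y ∈ N) (S : Finset X.functionField) {H : X.functionField}
    {J : Ideal Γ(X, N)}
    (hJ : ∀ b, b ∈ J ↔ ∀ a ∈ S, ffVal x hxN' b * a ∈ (ffVal x hxN').range)
    {G : Finset Γ(X, N)} (hG : Ideal.span G = J)
    (hgen : ∀ g ∈ G, ffVal x hxN' g / H ∈ localRing y)
    {φ : X.functionField} (hφ : φ ∈ localRing y) (hφS : ∀ a ∈ S, φ * a ∈ localRing y) :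
    φ / H ∈ localRing y := by
  classical
  let v : Γ(X, N) →+* X.functionField := ffVal x hxN'
  obtain ⟨s, hs, hs'⟩ := exists_common_den hN hy (insert φ (S.image (φ * ·))) (fun ψ hψ => by
    rcases Finset.mem_insert.mp hψ with rfl | hψ
    · exact hφ
    · obtain ⟨a, ha, rfl⟩ := Finset.mem_image.mp hψ
      exact hφS a ha)
  have hv : ∀ b : Γ(X, N), ffVal y hy b = v b := fun b => ffVal_indep y x hy hxN' b
  obtain ⟨b, hb⟩ := hs' φ (Finset.mem_insert_self _ _)
  rw [hv, hv] at hb
  -- `φ = b / s` with `b` in the ideal of denominators, and `s` a unit at `y`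
  have hbJ : b ∈ J := (hJ b).mpr fun a ha => by
    obtain ⟨c, hc⟩ := hs' _ (Finset.mem_insert_of_mem (Finset.mem_image_of_mem _ ha))
    rw [hv, hv] at hc
    exact ⟨c, by rw [hb, hc, mul_assoc]⟩
  let M : Ideal Γ(X, N) :=
    { carrier := {b | v b / H ∈ localRing y}
      add_mem' := fun {b c} hb hc => by
        show v (b + c) / H ∈ localRing y
        rw [map_add, add_div]
        exact add_mem hb hc
      zero_mem' := by
        show v 0 / H ∈ localRing y
        rw [map_zero, zero_div]
        exact zero_mem _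
      smul_mem' := fun r b hb => by
        show v (r * b) / H ∈ localRing y
        rw [map_mul, mul_div_assoc]
        exact mul_mem (hv r ▸ ffVal_mem_localRing y hy r) hb }
  have hJM : J ≤ M := hG ▸ Ideal.span_le.mpr hgen
  obtain ⟨w, hw⟩ := hs
  have hinv : algebraMap (X.presheaf.stalk y) X.functionField (↑w⁻¹ : X.presheaf.stalk y) *
      v s = 1 := by
    rw [← hv s, show ffVal y hy s =
      algebraMap (X.presheaf.stalk y) X.functionField (w : X.presheaf.stalk y)
      from congrArg (algebraMap (X.presheaf.stalk y) X.functionField) hw.symm, ← map_mul,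
        Units.inv_mul,
      map_one]
  have hfrac : φ / H = algebraMap (X.presheaf.stalk y) X.functionField (↑w⁻¹ : X.presheaf.stalk y) *
      (v b / H) := by
    rw [hb, ← mul_div_assoc, ← mul_assoc, hinv, one_mul]
  rw [hfrac]
  exact mul_mem ⟨_, rfl⟩ (hJM hbJ)

/-- At a closed point with factorial local ring there is a generator of the denominators on a
neighbourhood. -/
theorem exists_isDenomAt_nhds [IsLocallyNoetherian X] (S : Finset X.functionField) (x : X)
    [UniqueFactorizationMonoid (X.presheaf.stalk x)] :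
    ∃ (V : X.Opens) (H : X.functionField), x ∈ V ∧ ∀ y ∈ V, IsDenomAt S y H := by
  classical
  obtain ⟨h, h0, hh⟩ := Denom.exists_generator (R := X.presheaf.stalk x) (F := X.functionField) S
  set H := algebraMap (X.presheaf.stalk x) X.functionField h with hH
  have hH0 : H ≠ 0 := (map_ne_zero_iff _ (IsFractionRing.injective _ _)).mpr h0
  -- on an affine `N ∋ x` the denominators form a finitely generated ideal `J`
  obtain ⟨_, ⟨N, hN, rfl⟩, hxN, -⟩ :=
    X.isBasis_affineOpens.exists_subset_of_mem_open (Set.mem_univ x) isOpen_univ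
  have hxN' : x ∈ N := hxN
  have : IsNoetherianRing Γ(X, N) := IsLocallyNoetherian.component_noetherian ⟨N, hN⟩
  let v : Γ(X, N) →+* X.functionField := ffVal x hxN'
  let J : Ideal Γ(X, N) :=
    { carrier := {b | ∀ a ∈ S, v b * a ∈ v.range}
      add_mem' := fun {b c} hb hc a ha => by
        rw [map_add, add_mul]
        exact add_mem (hb a ha) (hc a ha)
      zero_mem' := fun a _ => by rw [map_zero, zero_mul]; exact zero_mem _
      smul_mem' := fun r b hb a ha => by
        rw [smul_eq_mul, map_mul, mul_assoc]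
        exact mul_mem ⟨r, rfl⟩ (hb a ha) }
  obtain ⟨G, hG⟩ := (IsNoetherian.noetherian J : J.FG)
  -- near `x`, the functions `H`, `H a` and `g / H`, `g` a generator of `J`, stay regular
  let F : Finset X.functionField := insert H (S.image (H * ·) ∪ G.image fun g => v g / H)
  have hF : ∀ φ ∈ F, φ ∈ localRing x := by
    intro φ hφ
    simp only [F, Finset.mem_insert, Finset.mem_union, Finset.mem_image] at hφ
    rcases hφ with rfl | ⟨a, ha, rfl⟩ | ⟨g, hg, rfl⟩
    · exact ⟨h, rfl⟩
    · exact (hh h).mpr dvd_rfl a ha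
    · have hgJ : g ∈ J := hG ▸ Ideal.subset_span hg
      obtain ⟨r, hr⟩ := (hh (X.presheaf.germ N x hxN' g)).mp fun a ha => by
        obtain ⟨c, hc⟩ := hgJ a ha
        exact ⟨X.presheaf.germ N x hxN' c, hc⟩
      refine ⟨r, ?_⟩
      have hvg : v g = H * algebraMap _ X.functionField r :=
        (congrArg (algebraMap (X.presheaf.stalk x) X.functionField) hr).trans (map_mul _ _ _)
      rw [hvg, mul_div_cancel_left₀ _ hH0]
  obtain ⟨V, hxV, hV⟩ := exists_nhds_forall_localRing F hF
  refine ⟨V ⊓ N, H, ⟨hxV, hxN'⟩, fun y hy => ⟨hH0, hV y hy.1 H (Finset.mem_insert_self _ _),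
    fun a ha => hV y hy.1 _ (Finset.mem_insert_of_mem
      (Finset.mem_union_left _ (Finset.mem_image_of_mem _ ha))), fun φ hφ hφS => ?_⟩⟩
  exact div_mem_localRing_of_generators hN hxN' hy.2 S (J := J) (fun b => Iff.rfl) hG
    (fun g hg => hV y hy.1 _ (Finset.mem_insert_of_mem
      (Finset.mem_union_right _ (Finset.mem_image_of_mem _ hg)))) hφ hφS

/-- A point at which all functions of an affine open of a separated integral scheme are regular lies
in that open. -/
theorem mem_of_ffVal_mem_localRing [X.IsSeparated] {U : X.Opens} (hU : IsAffineOpen U)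
    (hη : genericPoint X ∈ U) (y : X)
    (h : ∀ b : Γ(X, U), ffVal (genericPoint X) hη b ∈ localRing y) :
    y ∈ U := by
  choose ρ hρ using h
  have inj := IsFractionRing.injective (X.presheaf.stalk y) X.functionField
  let ρ' : Γ(X, U) →+* X.presheaf.stalk y :=
    { toFun := ρ
      map_one' := inj (by rw [hρ, map_one, map_one])
      map_mul' := fun a b => inj (by rw [hρ, map_mul, map_mul, hρ, hρ])
      map_zero' := inj (by rw [hρ, map_zero, map_zero])
      map_add' := fun a b => inj (by rw [hρ, map_add, map_add, hρ, hρ]) }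
  have hsp : genericPoint X ⤳ y := (genericPoint_spec X).specializes trivial
  let i : Spec X.functionField ⟶ Spec (X.presheaf.stalk y) :=
    Spec.map (X.presheaf.stalkSpecializes hsp)
  have : IsDominant i := ⟨by
    refine (PrimeSpectrum.denseRange_comap_iff_ker_le_nilRadical _).mpr ?_
    exact ((RingHom.injective_iff_ker_eq_bot _).mp inj).le.trans bot_le⟩
  have hcomp : CommRingCat.ofHom ρ' ≫ X.presheaf.stalkSpecializes hsp =
      X.presheaf.germ U (genericPoint X) hη := by
    refine CommRingCat.hom_ext (RingHom.ext fun b => ?_)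
    have : Nonempty U := ⟨⟨_, hη⟩⟩
    exact (hρ b).trans (ffVal_eq_germToFunctionField (genericPoint X) hη b)
  have heq : X.fromSpecStalk y = Spec.map (CommRingCat.ofHom ρ') ≫ hU.fromSpec := by
    refine ext_of_isDominant i ?_
    show Spec.map (X.presheaf.stalkSpecializes hsp) ≫ _ =
      Spec.map (X.presheaf.stalkSpecializes hsp) ≫ _
    rw [Scheme.SpecMap_stalkSpecializes_fromSpecStalk, ← Category.assoc, ← Spec.map_comp, hcomp,
      ← hU.fromSpecStalk_eq_fromSpecStalk hη]
    rfl
  have hmem : X.fromSpecStalk y (IsLocalRing.closedPoint (X.presheaf.stalk y)) ∈ U := by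
    rw [heq]
    show hU.fromSpec _ ∈ (U : Set X)
    rw [← hU.range_fromSpec]
    exact ⟨_, rfl⟩
  rwa [Scheme.fromSpecStalk_closedPoint] at hmem

/-- A proper integral scheme with factorial local rings at closed points has a divisor with
non-empty affine complement. -/
theorem exists_divData_of_factorial {K : Type u} [Field K] (f : X ⟶ Spec (CommRingCat.of K))
    [IsProper f]
    (hufd : ∀ x : X, IsClosed ({x} : Set X) → UniqueFactorizationMonoid (X.presheaf.stalk x)) :
    ∃ (D : DivData X) (U : X.Opens), IsAffineOpen U ∧ (U : Set X).Nonempty ∧ D.IsComplement U := by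
  classical
  have : IsLocallyNoetherian X := LocallyOfFiniteType.isLocallyNoetherian f
  have : X.IsSeparated := ⟨by
    rw [terminal.hom_ext (terminal.from X) (f ≫ terminal.from _)]
    infer_instance⟩
  have : CompactSpace X := QuasiCompact.compactSpace_of_compactSpace f
  -- Fix an affine open `U`; let `S` be generators of its ring, inside the function field.
  obtain ⟨_, ⟨U, hU, rfl⟩, hη, -⟩ :=
    X.isBasis_affineOpens.exists_subset_of_mem_open (Set.mem_univ (genericPoint X)) isOpen_univ
  have hη' : genericPoint X ∈ U := hη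
  let φ : Γ(Spec (CommRingCat.of K), ⊤) →+* Γ(X, U) := (f.appLE ⊤ U le_top).hom
  algebraize [φ]
  have hft : Algebra.FiniteType Γ(Spec (CommRingCat.of K), ⊤) Γ(X, U) :=
    f.finiteType_appLE (isAffineOpen_top _) hU le_top
  obtain ⟨G, hG⟩ := hft.out
  let S : Finset X.functionField := G.image (ffVal (genericPoint X) hη')
  -- The divisor is given near each point by a denominator of `S`, chosen by factoriality.
  let D : DivData X :=
    { ι := {p : X.Opens × X.functionField // p.2 ≠ 0 ∧ ∀ y ∈ p.1, IsDenomAt S y p.2}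
      U := fun p => p.1.1
      covers := top_unique fun p _ => by
        obtain ⟨x, hx, hxc⟩ := (isClosed_closure (s := ({p} : Set X))).exists_closed_singleton
          ⟨p, subset_closure rfl⟩
        have := hufd x hxc
        obtain ⟨V, H, hxV, hV⟩ := exists_isDenomAt_nhds S x
        exact Opens.mem_iSup.mpr ⟨⟨(V, H), (hV x hxV).1, hV⟩,
          (specializes_iff_mem_closure.mpr hx).mem_open V.isOpen hxV⟩
      h := fun p => p.1.2
      ne_zero := fun p => p.2.1
      unit := fun p q => ⟨div_ne_zero p.2.1 q.2.1,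
        fun y hy => (p.2.2 y hy.1).div_mem (q.2.2 y hy.2),
        fun y hy => by rw [inv_div]; exact (q.2.2 y hy.2).div_mem (p.2.2 y hy.1)⟩ }
  refine ⟨D, U, hU, ⟨_, hη'⟩, fun p y hy => (p.2.2 y hy).2.1, fun p y hy => ⟨fun hyU => ?_, ?_⟩⟩
  -- A denominator is invertible on `U`, where all of `S` is regular.
  · obtain ⟨a, ha⟩ := (p.2.2 y hy).2.1
    obtain ⟨b, hb⟩ := (p.2.2 y hy).2.2.2 1 (one_mem _) fun c hc => by
      obtain ⟨g, -, rfl⟩ := Finset.mem_image.mp hc
      rw [one_mul, ffVal_indep _ y hη' hyU]
      exact ffVal_mem_localRing y hyU g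
    have hab : a * b = 1 := IsFractionRing.injective (X.presheaf.stalk y) X.functionField (by
      rw [map_mul, ha, hb, map_one, mul_one_div, div_self p.2.1])
    exact ⟨⟨a, b, hab, (mul_comm b a).trans hab⟩, ha⟩
  · rintro ⟨s, hs⟩
    -- Where the denominator is a unit all of `S` is regular, so the point lies in `U`.
    refine mem_of_ffVal_mem_localRing hU hη' y fun b => ?_
    have hb : b ∈ Algebra.adjoin Γ(Spec (CommRingCat.of K), ⊤) (G : Set Γ(X, U)) :=
      hG ▸ Algebra.mem_top
    induction hb using Algebra.adjoin_induction with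
    | mem g hg =>
      have h2 := (p.2.2 y hy).2.2.1 _ (Finset.mem_image_of_mem (ffVal (genericPoint X) hη') hg)
      have h1 : algebraMap (X.presheaf.stalk y) X.functionField (↑s⁻¹ : X.presheaf.stalk y) *
          p.1.2 = 1 := by
        rw [show p.1.2 = algebraMap (X.presheaf.stalk y) X.functionField
          (s : X.presheaf.stalk y) from hs.symm, ← map_mul, Units.inv_mul, map_one]
      have h3 := mul_mem (⟨_, rfl⟩ : algebraMap (X.presheaf.stalk y) X.functionField
        (↑s⁻¹ : X.presheaf.stalk y) ∈ localRing y) h2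
      rwa [← mul_assoc, h1, one_mul] at h3
    | algebraMap c =>
      show ffVal _ hη' (res X le_top (f.appTop c)) ∈ localRing y
      rw [ffVal_res, ffVal_indep _ y _ (Opens.mem_top y)]
      exact ffVal_mem_localRing y _ _
    | add a b _ _ ha hb => rw [map_add]; exact add_mem ha hb
    | mul a b _ _ ha hb => rw [map_mul]; exact mul_mem ha hb

end Fermat.Agent.AbVar

end
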