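import Mathlib

/-!
# Parameters at a smooth rational point

Parameters at a rational point of a smooth affine variety make its local ring formally étale over
the polynomial ring, hence flat, and make the function field algebraic over it.

These are `formallySmooth` with `formallyUnramified`, `flat` and `isAlgebraic`.
-/

set_option autoImplicit false

universe u

noncomputable section

open TensorProduct

namespace Fermat.Agent.AbVar.Local

variable {K : Type u} [Field K] {A : Type u} [CommRing A] [Algebra K A] (m : Ideal A) [m.IsMaximal]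

/-! ### Parameters -/

/-- Elements of `m` which generate the maximal ideal of the localisation at `m` and are independent
modulo its square there. -/
def IsParam {g : ℕ} (x : Fin g → A) : Prop :=
  (∀ i, x i ∈ m) ∧
    IsLocalRing.maximalIdeal (Localization.AtPrime m) ≤
      Ideal.span (Set.range fun i => algebraMap A (Localization.AtPrime m) (x i)) ∧
    ∀ c : Fin g → Localization.AtPrime m,
      ∑ i, c i * algebraMap A (Localization.AtPrime m) (x i) ∈
          IsLocalRing.maximalIdeal (Localization.AtPrime m) ^ 2 →
        ∀ i, c i ∈ IsLocalRing.maximalIdeal (Localization.AtPrime m)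

/-- Parameters changed by elements of `m ^ 2` are still parameters. -/
theorem IsParam.congr_sq [IsNoetherianRing A] {g : ℕ} {x x' : Fin g → A} (h : IsParam m x)
    (hx : ∀ i, x' i - x i ∈ m ^ 2) : IsParam m x' := by
  set R := Localization.AtPrime m
  set M := IsLocalRing.maximalIdeal R
  have : IsNoetherianRing R := IsLocalization.isNoetherianRing m.primeCompl R inferInstance
  have hd : ∀ i, algebraMap A R (x' i) - algebraMap A R (x i) ∈ M ^ 2 := fun i => by
    have := Ideal.mem_map_of_mem (algebraMap A R) (hx i)
    rwa [Ideal.map_pow, Localization.AtPrime.map_eq_maximalIdeal, map_sub] at this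
  have hmem : ∀ i, x' i ∈ m := fun i => by
    simpa using add_mem (Ideal.pow_le_self two_ne_zero (hx i)) (h.1 i)
  refine ⟨hmem, ?_, fun c hc => h.2.2 c ?_⟩
  · refine Submodule.le_of_le_smul_of_le_jacobson_bot (I := M) (IsNoetherian.noetherian M)
      (IsLocalRing.jacobson_eq_maximalIdeal ⊥ bot_ne_top).ge ?_
    refine h.2.1.trans (Ideal.span_le.2 ?_)
    rintro _ ⟨i, rfl⟩
    refine Submodule.mem_sup.2 ⟨_, Ideal.subset_span ⟨i, rfl⟩,
      algebraMap A R (x i) - algebraMap A R (x' i), ?_, add_sub_cancel _ _⟩
    rw [← neg_sub, smul_eq_mul, ← sq]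
    exact neg_mem (hd i)
  · have e : ∑ i, c i * algebraMap A R (x i) =
        ∑ i, c i * algebraMap A R (x' i) - ∑ i, c i *
            (algebraMap A R (x' i) - algebraMap A R (x i)) := by
      simp only [mul_sub, Finset.sum_sub_distrib, sub_sub_cancel]
    rw [e]
    exact sub_mem hc (sum_mem fun i _ => Ideal.mul_mem_left _ _ (hd i))

/-- Parameters at a maximal ideal exist. -/
theorem exists_isParam [IsNoetherianRing A] : ∃ (g : ℕ) (x : Fin g → A), IsParam m x := by
  classical
  set R := Localization.AtPrime m
  set M := IsLocalRing.maximalIdeal R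
  have : IsNoetherianRing R := IsLocalization.isNoetherianRing m.primeCompl R inferInstance
  have hex : ∃ g, ∃ x : Fin g → A, (∀ i, x i ∈ m) ∧
      M ≤ Ideal.span (Set.range fun i => algebraMap A R (x i)) := by
    obtain ⟨n, x, hx⟩ := Submodule.fg_iff_exists_fin_generating_family.1 (IsNoetherian.noetherian m)
    refine ⟨n, x, fun i => hx ▸ Submodule.subset_span ⟨i, rfl⟩, ?_⟩
    refine (Localization.AtPrime.map_eq_maximalIdeal).symm.trans_le (Ideal.map_le_iff_le_comap.2 ?_)
    exact hx.symm.trans_le (Submodule.span_le.2 (Set.range_subset_iff.2 fun i =>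
      Ideal.subset_span ⟨i, rfl⟩))
  obtain ⟨hm, hspan⟩ := (Nat.find_spec hex).choose_spec
  set x := (Nat.find_spec hex).choose
  refine ⟨_, x, hm, hspan, fun c hc i => ?_⟩
  by_contra hi
  obtain ⟨u, hu⟩ := IsLocalRing.notMem_maximalIdeal.1 hi
  -- a generator can be dropped
  have hpos : 0 < Nat.find hex := i.pos
  obtain ⟨n, hn⟩ : ∃ n, Nat.find hex = n + 1 := ⟨_, (Nat.succ_pred_eq_of_pos hpos).symm⟩
  let e : Fin (n + 1) ≃ Fin (Nat.find hex) := finCongr hn.symm
  let y : Fin n → A := fun j => x (e ((e.symm i).succAbove j))
  refine Nat.find_min hex (show n < Nat.find hex by omega) ⟨y, fun j => hm _, ?_⟩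
  set T := Ideal.span (Set.range fun j => algebraMap A R (y j))
  refine Submodule.le_of_le_smul_of_le_jacobson_bot (I := M) (IsNoetherian.noetherian M)
    (IsLocalRing.jacobson_eq_maximalIdeal ⊥ bot_ne_top).ge ?_
  refine hspan.trans (Ideal.span_le.2 ?_)
  rintro _ ⟨l, rfl⟩
  have hy : ∀ l, l ≠ i → algebraMap A R (x l) ∈ T := fun l hl => by
    obtain ⟨j, hj⟩ := Fin.exists_succAbove_eq (x := e.symm l) (y := e.symm i)
      (fun h => hl (e.symm.injective h))
    exact Ideal.subset_span ⟨j, by simp only [y]; rw [hj, Equiv.apply_symm_apply]⟩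
  by_cases hl : l = i
  · subst hl
    have hsum : ∑ j ∈ Finset.univ.erase l, c j * algebraMap A R (x j) ∈ T :=
      sum_mem fun j hj => Ideal.mul_mem_left _ _ (hy j (Finset.ne_of_mem_erase hj))
    rw [← Finset.add_sum_erase _ _ (Finset.mem_univ l)] at hc
    set a := ∑ j ∈ Finset.univ.erase l, c j * algebraMap A R (x j)
    refine Submodule.mem_sup.2 ⟨-(↑u⁻¹ * a), neg_mem (Ideal.mul_mem_left _ _ hsum),
      ↑u⁻¹ * (c l * algebraMap A R (x l) + a), ?_, ?_⟩
    · rw [smul_eq_mul, ← sq]; exact Ideal.mul_mem_left _ _ hc
    · show _ = algebraMap A R (x l)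
      rw [← hu, mul_add, ← mul_assoc, Units.inv_mul, one_mul]
      ring
  · exact Submodule.mem_sup_left (hy l hl)

/-! ### Values and the derivation at a closed point -/

/-- Closed points of affine varieties over an algebraically closed field are rational. -/
theorem exists_const [IsAlgClosed K] [Algebra.FiniteType K A] (a : A) :
    ∃ c : K, a - algebraMap K A c ∈ m := by
  let _ : Field (A ⧸ m) := Ideal.Quotient.field m
  have : Algebra.FiniteType K (A ⧸ m) :=
    Algebra.FiniteType.of_surjective (Ideal.Quotient.mkₐ K m) (Ideal.Quotient.mkₐ_surjective K m)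
  have : Module.Finite K (A ⧸ m) := finite_of_finite_type_of_isJacobsonRing K (A ⧸ m)
  obtain ⟨c, hc⟩ :=
    (IsAlgClosed.algebraMap_bijective_of_isIntegral (k := K) (K := A ⧸ m)).2 (Ideal.Quotient.mk m a)
  refine ⟨c, Ideal.Quotient.eq.1 ?_⟩
  rw [← hc]
  rfl

/-- For an algebra of finite type over an algebraically closed field the residue field at a
maximal ideal consists of the constants. -/
theorem exists_const_atPrime [IsAlgClosed K] [Algebra.FiniteType K A] (r : Localization.AtPrime m) :
    ∃ c : K, r - algebraMap K _ c ∈ IsLocalRing.maximalIdeal (Localization.AtPrime m) := by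
  let R := Localization.AtPrime m
  obtain ⟨⟨a, s⟩, h⟩ := IsLocalization.surj m.primeCompl r
  obtain ⟨ca, ha⟩ := exists_const (K := K) m a
  obtain ⟨cs, hs⟩ := exists_const (K := K) m (s : A)
  have hcs : cs ≠ 0 := fun h0 => s.2 (by simpa [h0] using hs)
  have hM : ∀ {b : A}, b ∈ m → algebraMap A R b ∈ IsLocalRing.maximalIdeal R := fun hb => by
    rw [← Localization.AtPrime.map_eq_maximalIdeal]; exact Ideal.mem_map_of_mem _ hb
  refine ⟨ca / cs, ?_⟩
  have e : (r - algebraMap K R (ca / cs)) * algebraMap A R s =
      algebraMap A R (a - algebraMap K A ca) -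
        algebraMap K R (ca / cs) * algebraMap A R ((s : A) - algebraMap K A cs) := by
    have hq : algebraMap K R (ca / cs) * algebraMap K R cs = algebraMap K R ca := by
      rw [← map_mul, div_mul_cancel₀ ca hcs]
    have h' : r * algebraMap A R s = algebraMap A R a := h
    simp only [map_sub, ← IsScalarTower.algebraMap_apply]
    linear_combination h' - hq
  refine ((IsLocalRing.maximalIdeal.isMaximal R).isPrime.mem_or_mem (e ▸ sub_mem (hM ha)
    (Ideal.mul_mem_left _ _ (hM hs)))).resolve_right fun hmem => ?_
  exact (IsLocalRing.mem_maximalIdeal _).1 hmem (IsLocalization.map_units R s)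

/-- The residue of a function minus its value, as a derivation into the cotangent space. -/
theorem exists_cotangent_derivation [IsAlgClosed K] [Algebra.FiniteType K A] :
    ∃ δ : Derivation K (Localization.AtPrime m)
        (IsLocalRing.maximalIdeal (Localization.AtPrime m)).Cotangent,
      ∀ (x : Localization.AtPrime m) (hx : x ∈ IsLocalRing.maximalIdeal (Localization.AtPrime m)),
        δ x = (IsLocalRing.maximalIdeal _).toCotangent ⟨x, hx⟩ := by
  set R := Localization.AtPrime m
  set M := IsLocalRing.maximalIdeal R
  choose ev hev using exists_const_atPrime (K := K) (A := A) m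
  -- The value of a function is the constant congruent to it modulo `M`; it is unique.
  have huniq : ∀ (r : R) (c : K), r - algebraMap K R c ∈ M → ev r = c := fun r c hc => by
    by_contra hne
    have h2 : algebraMap K R (ev r - c) ∈ M := by
      rw [map_sub, show algebraMap K R (ev r) - algebraMap K R c =
        (r - algebraMap K R c) - (r - algebraMap K R (ev r)) by ring]
      exact sub_mem hc (hev r)
    exact (IsLocalRing.mem_maximalIdeal _).1 h2 ((sub_ne_zero.2 hne).isUnit.map _)
  -- The map `r ↦ r - r(m)` into `M / M ^ 2` is linear.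
  let δ₀ : R → M.Cotangent := fun r => M.toCotangent ⟨r - algebraMap K R (ev r), hev r⟩
  have hadd : ∀ r r', δ₀ (r + r') = δ₀ r + δ₀ r' := fun r r' => by
    simp only [δ₀, ← map_add]
    refine congrArg _ (Subtype.ext ?_)
    show r + r' - algebraMap K R (ev (r + r')) = _ + _
    rw [huniq (r + r') (ev r + ev r') (by
      rw [map_add, add_sub_add_comm]; exact add_mem (hev r) (hev r')), map_add]
    ring
  have hsmul : ∀ (c : K) r, δ₀ (c • r) = c • δ₀ r := fun c r => by
    simp only [δ₀]
    rw [← algebraMap_smul R c (M.toCotangent _), ← map_smul]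
    refine congrArg _ (Subtype.ext ?_)
    show c • r - algebraMap K R (ev (c • r)) = algebraMap K R c * (r - algebraMap K R (ev r))
    rw [huniq (c • r) (c * ev r) (by
      rw [Algebra.smul_def, map_mul, ← mul_sub]; exact Ideal.mul_mem_left _ _ (hev r)), map_mul,
      Algebra.smul_def, mul_sub]
  let δl : R →ₗ[K] M.Cotangent := { toFun := δ₀, map_add' := hadd, map_smul' := hsmul }
  refine ⟨Derivation.mk' δl fun r r' => ?_, fun x hx => congrArg M.toCotangent (Subtype.ext ?_)⟩
  -- The Leibniz rule holds modulo `M ^ 2`.
  · show δ₀ (r * r') = r • δ₀ r' + r' • δ₀ r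
    simp only [δ₀, ← map_smul, ← map_add]
    rw [Ideal.toCotangent_eq]
    show r * r' - algebraMap K R (ev (r * r')) -
      (r * (r' - algebraMap K R (ev r')) + r' * (r - algebraMap K R (ev r))) ∈ M ^ 2
    have hprod : ev (r * r') = ev r * ev r' := huniq _ _ (by
      rw [map_mul, show r * r' - algebraMap K R (ev r) * algebraMap K R (ev r') =
        r * (r' - algebraMap K R (ev r')) + algebraMap K R (ev r') * (r - algebraMap K R (ev r)) by
          ring]
      exact add_mem (Ideal.mul_mem_left _ _ (hev r')) (Ideal.mul_mem_left _ _ (hev r)))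
    rw [hprod, map_mul, show r * r' - algebraMap K R (ev r) * algebraMap K R (ev r') -
      (r * (r' - algebraMap K R (ev r')) + r' * (r - algebraMap K R (ev r))) =
        -((r - algebraMap K R (ev r)) * (r' - algebraMap K R (ev r'))) by ring, sq]
    exact neg_mem (Ideal.mul_mem_mul (hev r) (hev r'))
  · show x - algebraMap K R (ev x) = x
    rw [huniq x 0 (by simpa using hx), map_zero, sub_zero]

/-! ### The local ring over the coordinates -/

section Coordinates

variable [IsAlgClosed K] [Algebra.FiniteType K A] [Algebra.FormallySmooth K A]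
variable {g : ℕ} [Algebra (MvPolynomial (Fin g) K) A] [IsScalarTower K (MvPolynomial (Fin g) K) A]
variable (h : IsParam m fun i : Fin g => algebraMap (MvPolynomial (Fin g) K) A (MvPolynomial.X i))

include h

open KaehlerDifferential in
omit [Algebra.FormallySmooth K A] [IsScalarTower K (MvPolynomial (Fin g) K) A] in
theorem span_D_eq_top :
    Submodule.span (Localization.AtPrime m) (Set.range fun i : Fin g =>
      D K (Localization.AtPrime m)
        (algebraMap (MvPolynomial (Fin g) K) (Localization.AtPrime m) (MvPolynomial.X i))) = ⊤ := by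
  set R := Localization.AtPrime m
  set T := Submodule.span R (Set.range fun i : Fin g =>
      D K R (algebraMap (MvPolynomial (Fin g) K) R (MvPolynomial.X i)))
  set M := IsLocalRing.maximalIdeal R
  refine top_le_iff.1 (Submodule.le_of_le_smul_of_le_jacobson_bot (I := M) Module.Finite.fg_top
    (IsLocalRing.jacobson_eq_maximalIdeal ⊥ bot_ne_top).ge ?_)
  rw [← span_range_derivation, Submodule.span_le]
  rintro _ ⟨r, rfl⟩
  obtain ⟨c, hc⟩ := exists_const_atPrime (K := K) m r
  rw [show D K R r = D K R (r - algebraMap K R c) by
    rw [map_sub, Derivation.map_algebraMap, sub_zero]]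
  obtain ⟨d, hd⟩ := Ideal.mem_span_range_iff_exists_fun.1 (h.2.1 hc)
  rw [← hd, map_sum]
  refine sum_mem fun i _ => ?_
  rw [Derivation.leibniz]
  refine add_mem (Submodule.mem_sup_left ?_) (Submodule.mem_sup_right ?_)
  · refine T.smul_mem _ (Submodule.subset_span ⟨i, congrArg (D K R) ?_⟩)
    exact IsScalarTower.algebraMap_apply (MvPolynomial (Fin g) K) A R _
  · refine Submodule.smul_mem_smul ?_ (by rw [span_range_derivation]; exact Submodule.mem_top)
    rw [show M = m.map (algebraMap A R) from Localization.AtPrime.map_eq_maximalIdeal.symm]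
    exact Ideal.mem_map_of_mem _ (h.1 i)

omit [IsScalarTower K (MvPolynomial (Fin g) K) A] in
open KaehlerDifferential in
/-- The differentials of parameters are linearly independent. -/
theorem linearIndependent_D :
    LinearIndependent (Localization.AtPrime m) fun i : Fin g =>
      D K (Localization.AtPrime m)
        (algebraMap (MvPolynomial (Fin g) K) (Localization.AtPrime m) (MvPolynomial.X i)) := by
  classical
  set R := Localization.AtPrime m
  set M := IsLocalRing.maximalIdeal R
  set x : Fin g → R := fun i => algebraMap (MvPolynomial (Fin g) K) R (MvPolynomial.X i)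
  have : Algebra.FormallySmooth K R := Algebra.FormallySmooth.comp K A R
  let φ : (Fin g → R) →ₗ[R] Ω[R⁄K] := Fintype.linearCombination R fun i => D K R (x i)
  have hφ : Function.Surjective φ := by
    rw [← LinearMap.range_eq_top, Fintype.range_linearCombination]
    exact span_D_eq_top m h
  obtain ⟨δ, hδ⟩ := exists_cotangent_derivation (K := K) m
  have hxM : ∀ i, x i ∈ M := fun i => by
    rw [show M = m.map (algebraMap A R) from Localization.AtPrime.map_eq_maximalIdeal.symm,
      show x i = _ from IsScalarTower.algebraMap_apply (MvPolynomial (Fin g) K) A R _]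
    exact Ideal.mem_map_of_mem _ (h.1 i)
  -- the kernel has coefficients in the maximal ideal
  have hker : ∀ c, φ c = 0 → c ∈ M • (⊤ : Submodule R (Fin g → R)) := fun c hc => by
    have h1 := congrArg δ.liftKaehlerDifferential hc
    rw [Fintype.linearCombination_apply, map_sum, map_zero] at h1
    simp only [map_smul] at h1
    rw [Finset.sum_congr rfl fun i _ => congrArg (c i • ·)
      ((Derivation.liftKaehlerDifferential_comp_D δ (x i)).trans (hδ _ (hxM i)))] at h1
    simp only [← map_smul, ← map_sum, Ideal.toCotangent_eq_zero] at h1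
    have h2 : ∀ i, c i ∈ M := h.2.2 c (by
      simpa [x, Submodule.coe_sum, IsScalarTower.algebraMap_apply (MvPolynomial (Fin g) K) A R]
        using h1)
    rw [pi_eq_sum_univ' c]
    exact sum_mem fun i _ => Submodule.smul_mem_smul (h2 i) Submodule.mem_top
  obtain ⟨σ, hσ⟩ := Module.projective_lifting_property φ LinearMap.id hφ
  let P : (Fin g → R) →ₗ[R] (Fin g → R) := LinearMap.id - σ ∘ₗ φ
  have hPker : ∀ c, φ (P c) = 0 := fun c => by
    have := LinearMap.congr_fun hσ (φ c)
    simp only [LinearMap.comp_apply, LinearMap.id_apply] at this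
    simp [P, map_sub, this]
  have hle : LinearMap.ker φ ≤ M • LinearMap.ker φ := fun c hc => by
    have hmem := Submodule.mem_map_of_mem (f := P) (hker c hc)
    rw [Submodule.map_smul'', show P c = c by simp [P, LinearMap.mem_ker.1 hc]] at hmem
    exact Submodule.smul_mono le_rfl (by rintro _ ⟨d, -, rfl⟩; exact hPker d) hmem
  have : IsNoetherianRing A := Algebra.FiniteType.isNoetherianRing K A
  have : IsNoetherianRing R := IsLocalization.isNoetherianRing m.primeCompl R inferInstance
  have hbot : LinearMap.ker φ = ⊥ := Submodule.eq_bot_of_le_smul_of_le_jacobson_bot M _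
    (IsNoetherian.noetherian _) hle (IsLocalRing.jacobson_eq_maximalIdeal ⊥ bot_ne_top).ge
  refine Fintype.linearIndependent_iff.2 fun c hc i => ?_
  have hc' : c ∈ LinearMap.ker φ :=
    LinearMap.mem_ker.2 ((Fintype.linearCombination_apply _ _ _).trans hc)
  rw [hbot, Submodule.mem_bot] at hc'
  exact congrFun hc' i

open KaehlerDifferential in
theorem bijective_mapBaseChange :
    Function.Bijective (mapBaseChange K (MvPolynomial (Fin g) K) (Localization.AtPrime m)) := by
  set R := Localization.AtPrime m
  let b₀ := (KaehlerDifferential.mvPolynomialBasis K (Fin g)).baseChange R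
  let b := Module.Basis.mk (linearIndependent_D m h) (span_D_eq_top m h).ge
  have e : mapBaseChange K (MvPolynomial (Fin g) K) R = (b₀.equiv b (Equiv.refl _)).toLinearMap :=
    b₀.ext fun i => by
      rw [LinearEquiv.coe_coe, Module.Basis.equiv_apply, Module.Basis.mk_apply, Equiv.refl_apply,
        Module.Basis.baseChange_apply, mapBaseChange_tmul, one_smul,
        KaehlerDifferential.mvPolynomialBasis_apply, map_D]
  rw [e]
  exact (b₀.equiv b (Equiv.refl _)).bijective

open KaehlerDifferential in
/-- The local ring is formally unramified over the polynomial ring in the parameters. -/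
theorem formallyUnramified :
    Algebra.FormallyUnramified (MvPolynomial (Fin g) K) (Localization.AtPrime m) := by
  set S := MvPolynomial (Fin g) K
  set R := Localization.AtPrime m
  refine ⟨⟨fun a b => ?_⟩⟩
  obtain ⟨a', rfl⟩ := map_surjective K S R a
  obtain ⟨b', rfl⟩ := map_surjective K S R b
  have h0 : ∀ c, map K S R R c = 0 := fun c =>
    (exact_mapBaseChange_map K S R c).2 ((bijective_mapBaseChange m h).2 c)
  rw [h0, h0]

/-- The local ring is formally smooth over the polynomial ring in the parameters. -/
theorem formallySmooth :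
    Algebra.FormallySmooth (MvPolynomial (Fin g) K) (Localization.AtPrime m) := by
  set S := MvPolynomial (Fin g) K
  set R := Localization.AtPrime m
  have : Algebra.FormallyUnramified S R := formallyUnramified m h
  have : Algebra.FormallySmooth K R := Algebra.FormallySmooth.comp K A R
  have h1 : Subsingleton (Algebra.H1Cotangent S R) := subsingleton_of_forall_eq 0 fun z => by
    obtain ⟨w, rfl⟩ := (Algebra.H1Cotangent.exact_map_δ K S R z).1
      ((bijective_mapBaseChange m h).1 (by
        rw [map_zero]
        exact (Algebra.H1Cotangent.exact_δ_mapBaseChange K S R).apply_apply_eq_zero z))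
    rw [Subsingleton.elim w 0, map_zero]
  exact ⟨inferInstance, h1⟩

/-- The local ring is flat over the polynomial ring in the parameters. -/
theorem flat : Module.Flat (MvPolynomial (Fin g) K) (Localization.AtPrime m) := by
  set S := MvPolynomial (Fin g) K
  set R := Localization.AtPrime m
  have : Algebra.FormallySmooth S R := formallySmooth m h
  have : Algebra.FiniteType S A := Algebra.FiniteType.of_restrictScalars_finiteType K S A
  obtain ⟨n, π, hπ⟩ := (Algebra.FiniteType.iff_quotient_mvPolynomial'' (R := S)
    (S := A)).mp inferInstance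
  let Q : Ideal (MvPolynomial (Fin n) S) := m.comap π.toRingHom
  have : Q.IsPrime := Ideal.IsPrime.comap _
  let P' := Localization.AtPrime Q
  have : IsNoetherianRing P' := IsLocalization.isNoetherianRing Q.primeCompl P' inferInstance
  have : Module.Flat S P' := Module.Flat.trans S (MvPolynomial (Fin n) S) P'
  let f : P' →ₐ[S] R := IsLocalization.liftAlgHom (M := Q.primeCompl)
    (f := (IsScalarTower.toAlgHom S A R).comp π) fun y =>
      IsLocalization.map_units R (⟨π y, y.2⟩ : m.primeCompl)
  refine @Algebra.FormallySmooth.flat_of_algHom_of_isNoetherianRing S R P' _ _ _ _ _ f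
    (fun r => ?_) _ _ _
  obtain ⟨⟨a, s⟩, hr⟩ := IsLocalization.surj m.primeCompl r
  obtain ⟨a', rfl⟩ := hπ a
  obtain ⟨s', hs'⟩ := hπ (s : A)
  have hs'' : s' ∈ Q.primeCompl := fun hmem => s.2 (hs' ▸ hmem)
  refine ⟨IsLocalization.mk' P' a' ⟨s', hs''⟩, ?_⟩
  show IsLocalization.lift _ _ = r
  rw [IsLocalization.lift_mk'_spec]
  show algebraMap A R (π a') = algebraMap A R (π s') * r
  rw [hs', ← hr, mul_comm]

/-- Parameters at a point of a smooth algebra of finite type over an algebraically closed field
are algebraically independent in the local ring. -/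
theorem injective_algebraMap :
    Function.Injective (algebraMap (MvPolynomial (Fin g) K) (Localization.AtPrime m)) := by
  have := flat m h
  refine (injective_iff_map_eq_zero _).2 fun s hs => ?_
  by_contra hs0
  have h1 := Module.Flat.rTensor_preserves_injective_linearMap
    (M := Localization.AtPrime m) (LinearMap.mulLeft (MvPolynomial (Fin g) K) s)
    (mul_right_injective₀ hs0)
  have h2 :
      ((1 : MvPolynomial (Fin g) K) ⊗ₜ[MvPolynomial (Fin g) K] (1 : Localization.AtPrime m)) =
        0 := by
    refine h1 ?_
    rw [map_zero, LinearMap.rTensor_tmul, LinearMap.mulLeft_apply, ← smul_eq_mul,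
      TensorProduct.smul_tmul, Algebra.smul_def, hs, zero_mul, TensorProduct.tmul_zero]
  have h3 := congrArg (TensorProduct.lid (MvPolynomial (Fin g) K) (Localization.AtPrime m)) h2
  rw [TensorProduct.lid_tmul, one_smul, map_zero] at h3
  exact one_ne_zero h3

/-- A smooth domain of finite type is algebraic over the polynomial ring of parameters at a
point. -/
theorem isAlgebraic [IsDomain A] (a : A) : IsAlgebraic (MvPolynomial (Fin g) K) a := by
  set S := MvPolynomial (Fin g) K
  set R := Localization.AtPrime m
  let F := FractionRing A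
  have hSA : Function.Injective (algebraMap S A) := fun a b e => injective_algebraMap m h (by
    rw [IsScalarTower.algebraMap_apply S A R, e, ← IsScalarTower.algebraMap_apply S A R])
  have : FaithfulSMul S F := (faithfulSMul_iff_algebraMap_injective S F).2 (by
    rw [IsScalarTower.algebraMap_eq S A F]
    exact (IsFractionRing.injective A F).comp hSA)
  let L := FractionRing S
  let : Algebra L F := FractionRing.liftAlgebra S F
  let : Algebra R F := (IsLocalization.lift (M := m.primeCompl) (g := algebraMap A F) fun y =>
    (IsUnit.mk0 _ fun e => y.2 (by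
      rw [IsFractionRing.injective A F (e.trans (map_zero _).symm)]; exact zero_mem m))).toAlgebra
  have : IsScalarTower A R F := IsScalarTower.of_algebraMap_eq fun a =>
    (IsLocalization.lift_eq _ a).symm
  have : IsScalarTower S R F := IsScalarTower.of_algebraMap_eq fun s => by
    rw [IsScalarTower.algebraMap_apply S A F, IsScalarTower.algebraMap_apply S A R,
      ← IsScalarTower.algebraMap_apply A R F]
  have : IsLocalization (Algebra.algebraMapSubmonoid R (nonZeroDivisors A)) F :=
    IsLocalization.isLocalization_of_submonoid_le R F m.primeCompl (nonZeroDivisors A)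
      m.primeCompl_le_nonZeroDivisors
  have : Algebra.FormallyUnramified S R := formallyUnramified m h
  have : Algebra.FormallyUnramified R F :=
    Algebra.FormallyUnramified.of_isLocalization (Algebra.algebraMapSubmonoid R (nonZeroDivisors A))
  have : Algebra.FormallyUnramified S F := Algebra.FormallyUnramified.comp S R F
  have : Algebra.FormallyUnramified L F := Algebra.FormallyUnramified.of_restrictScalars S L F
  have : Algebra.FiniteType S A := Algebra.FiniteType.of_restrictScalars_finiteType K S A
  have : Algebra.EssFiniteType A F := Algebra.EssFiniteType.of_isLocalization F (nonZeroDivisors A)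
  have : Algebra.EssFiniteType S F := Algebra.EssFiniteType.comp S A F
  have : Algebra.EssFiniteType L F := Algebra.EssFiniteType.of_comp S L F
  have : Algebra.IsSeparable L F := Algebra.FormallyUnramified.isSeparable L F
  have : IsAlgebraic L (algebraMap A F a) := Algebra.IsAlgebraic.isAlgebraic _
  exact (isAlgebraic_algebraMap_iff (IsFractionRing.injective A F)).1
    ((IsFractionRing.isAlgebraic_iff S L F).2 this)

end Coordinates

end Fermat.Agent.AbVar.Local

end
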