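import Fermat.Agent.AbVar.Factorial.Param

/-!
# Projections of a hypersurface near a smooth rational point

Adding high powers of Noether coordinates to parameters gives parameters for which the hypersurface
is finite over the affine space with the point alone in its fibre.
-/

set_option autoImplicit false

universe u

noncomputable section

namespace Fermat.Agent.AbVar.Local

variable {K : Type u} [Field K]

/-- Replacing the Noether coordinates `y` by `u + y ^ M` keeps finiteness, for `M` large. -/
theorem exists_finite_exponent {s : ℕ} {B : Type u} [CommRing B] [Algebra K B]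
    (ψ : MvPolynomial (Fin s) K →ₐ[K] B) (hψ : ψ.Finite) (u : Fin s → B) :
    ∃ M : ℕ, 2 ≤ M ∧ ∀ (g : ℕ) [Algebra (MvPolynomial (Fin g) K) B]
      [IsScalarTower K (MvPolynomial (Fin g) K) B] (ι : Fin s → Fin g),
      (∀ i, algebraMap (MvPolynomial (Fin g) K) B (MvPolynomial.X (ι i)) =
        u i + ψ (MvPolynomial.X i) ^ M) → Module.Finite (MvPolynomial (Fin g) K) B := by
  classical
  let : Algebra (MvPolynomial (Fin s) K) B := ψ.toRingHom.toAlgebra
  have hfin : Module.Finite (MvPolynomial (Fin s) K) B := hψ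
  obtain ⟨n, b, hb⟩ := Module.Finite.exists_fin (R := MvPolynomial (Fin s) K) (M := B)
  have hgen : ∀ z : B, ∃ c : Fin n → MvPolynomial (Fin s) K, ∑ l, ψ (c l) * b l = z := fun z => by
    obtain ⟨c, hc⟩ := (Submodule.mem_span_range_iff_exists_fun _).1
      (hb.ge (Submodule.mem_top (x := z)))
    exact ⟨c, hc⟩
  choose c hc using fun (i : Fin s) (j : Fin n) => hgen (u i * b j)
  let d := Finset.univ.sup fun ijl : Fin s × Fin n × Fin n => (c ijl.1 ijl.2.1 ijl.2.2).totalDegree
  refine ⟨d + 2, by omega, fun g _ _ ι hX => ?_⟩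
  set M := d + 2 with hM
  let mon : (Fin s →₀ ℕ) → B := fun α => ψ (MvPolynomial.monomial α 1)
  let gen : (Fin s → Fin M) × Fin n → B := fun p =>
    mon (Finsupp.equivFunOnFinite.symm fun i => (p.1 i : ℕ)) * b p.2
  set W := Submodule.span (MvPolynomial (Fin g) K) (Set.range gen)
  have hpoly : ∀ (p : MvPolynomial (Fin s) K) (z : B),
      ψ p * z = ∑ γ ∈ p.support, algebraMap K B (p.coeff γ) * (mon γ * z) := fun p z => by
    conv_lhs => rw [p.as_sum, map_sum, Finset.sum_mul]
    refine Finset.sum_congr rfl fun γ _ => ?_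
    rw [← mul_assoc, ← ψ.commutes, ← map_mul, MvPolynomial.algebraMap_eq,
      MvPolynomial.C_mul_monomial, mul_one]
  have hscal : ∀ (a : K) {z : B}, z ∈ W → algebraMap K B a * z ∈ W := fun a z hz => by
    rw [IsScalarTower.algebraMap_apply K (MvPolynomial (Fin g) K) B, ← Algebra.smul_def]
    exact W.smul_mem _ hz
  -- The `y ^ α * b j` with exponents below `M` span, by induction on the degree: replace
  -- `y i ^ M` by `X (ι i) - u i`. As `u i * b j` has coefficients of degree `≤ d < M`, this
  -- lowers the degree.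
  have key : ∀ (N : ℕ) (α : Fin s →₀ ℕ), α.degree = N → ∀ j, mon α * b j ∈ W := by
    intro N
    induction N using Nat.strong_induction_on with
    | _ N ih =>
      intro α hα j
      by_cases hsmall : ∀ i, α i < M
      · refine Submodule.subset_span ⟨(fun i => ⟨α i, hsmall i⟩, j), ?_⟩
        show mon (Finsupp.equivFunOnFinite.symm fun i => α i) * b j = _
        congr 2
        exact Finsupp.ext fun i => rfl
      simp only [not_forall, not_lt] at hsmall
      obtain ⟨i, hi⟩ := hsmall
      obtain ⟨β, rfl⟩ : ∃ β, α = Finsupp.single i M + β :=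
        exists_add_of_le (Finsupp.single_le_iff.2 hi)
      rw [map_add, Finsupp.degree_single] at hα
      have e : mon (Finsupp.single i M + β) =
          (algebraMap (MvPolynomial (Fin g) K) B (MvPolynomial.X (ι i)) - u i) * mon β := by
        rw [hX, add_sub_cancel_left]
        show ψ (MvPolynomial.monomial (Finsupp.single i M + β) 1) = ψ (MvPolynomial.X i) ^ M * ψ _
        rw [← map_pow, ← map_mul, MvPolynomial.X_pow_eq_monomial, MvPolynomial.monomial_mul,
          one_mul]
      rw [e, sub_mul, sub_mul, mul_assoc, ← Algebra.smul_def]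
      refine sub_mem (W.smul_mem _ (ih β.degree (by omega) β rfl j)) ?_
      rw [mul_right_comm, ← hc i j, Finset.sum_mul]
      refine sum_mem fun l _ => ?_
      rw [mul_assoc, hpoly]
      refine sum_mem fun γ hγ => hscal _ ?_
      rw [mul_comm (b l), ← mul_assoc,
        show mon γ * mon β = mon (γ + β) by
          simp only [mon, ← map_mul, MvPolynomial.monomial_mul, one_mul]]
      refine ih _ ?_ (γ + β) rfl l
      have hd : γ.degree ≤ d := (MvPolynomial.le_totalDegree hγ).trans
        (Finset.le_sup (f := fun ijl : Fin s × Fin n × Fin n =>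
          (c ijl.1 ijl.2.1 ijl.2.2).totalDegree)
          (Finset.mem_univ (i, j, l)))
      rw [map_add]
      omega
  refine ⟨⟨Finset.univ.image gen, ?_⟩⟩
  rw [Finset.coe_image, Finset.coe_univ, Set.image_univ, eq_top_iff]
  intro z _
  obtain ⟨e, rfl⟩ := hgen z
  refine sum_mem fun l _ => ?_
  rw [hpoly]
  exact sum_mem fun γ _ => hscal _ (key _ γ rfl l)

/-- Noether coordinates vanishing at a point. -/
theorem exists_noether_coordinates [IsAlgClosed K] {A : Type u} [CommRing A] [Algebra K A]
    [Algebra.FiniteType K A] (m : Ideal A) [m.IsMaximal] {P : Ideal A} (hP : P ≠ ⊤) :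
    ∃ (s : ℕ) (y : Fin s → A), (∀ i, y i ∈ m) ∧
      Function.Injective ((Ideal.Quotient.mkₐ K P).comp (MvPolynomial.aeval y)) ∧
      ((Ideal.Quotient.mkₐ K P).comp (MvPolynomial.aeval y)).Finite := by
  have : Nontrivial (A ⧸ P) := Ideal.Quotient.nontrivial_iff.2 hP
  have : Algebra.FiniteType K (A ⧸ P) :=
    Algebra.FiniteType.of_surjective (Ideal.Quotient.mkₐ K P) (Ideal.Quotient.mkₐ_surjective K P)
  obtain ⟨s, ψ, hinj, hfin⟩ := exists_finite_inj_algHom_of_fg K (A ⧸ P)
  choose y hy using fun i => Ideal.Quotient.mkₐ_surjective K P (ψ (MvPolynomial.X i))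
  choose a ha using fun i => exists_const (K := K) m (y i)
  let τ : MvPolynomial (Fin s) K →ₐ[K] MvPolynomial (Fin s) K :=
    MvPolynomial.aeval fun i => MvPolynomial.X i - MvPolynomial.C (a i)
  let τ' : MvPolynomial (Fin s) K →ₐ[K] MvPolynomial (Fin s) K :=
    MvPolynomial.aeval fun i => MvPolynomial.X i + MvPolynomial.C (a i)
  let e := AlgEquiv.ofAlgHom τ τ' (MvPolynomial.algHom_ext fun i => by simp [τ, τ'])
    (MvPolynomial.algHom_ext fun i => by simp [τ, τ'])
  have he : (Ideal.Quotient.mkₐ K P).comp (MvPolynomial.aeval fun i => y i - algebraMap K A (a i)) =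
      ψ.comp e.toAlgHom := MvPolynomial.algHom_ext fun i => by
    show Ideal.Quotient.mkₐ K P (MvPolynomial.aeval _ (MvPolynomial.X i)) = ψ (τ (MvPolynomial.X i))
    simp only [τ, MvPolynomial.aeval_X, map_sub, hy, ← MvPolynomial.algebraMap_eq, AlgHom.commutes]
  refine ⟨s, fun i => y i - algebraMap K A (a i), ha, ?_, ?_⟩
  · rw [he]; exact hinj.comp e.injective
  · rw [he]; exact hfin.comp (AlgHom.Finite.of_surjective e.toAlgHom e.surjective)

variable [IsAlgClosed K] {A : Type u} [CommRing A] [IsDomain A] [Algebra K A]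
    [Algebra.FiniteType K A]
  [Algebra.FormallySmooth K A]

/-- A proper closed subset has fewer Noether coordinates than there are parameters. -/
theorem noether_lt {g : ℕ} [Algebra (MvPolynomial (Fin g) K) A]
    [IsScalarTower K (MvPolynomial (Fin g) K) A] (m : Ideal A) [m.IsMaximal]
    (hu : IsParam m fun i : Fin g => algebraMap (MvPolynomial (Fin g) K) A (MvPolynomial.X i))
    {P : Ideal A} {p₀ : A} (hp : p₀ ∈ P) (hp0 : p₀ ≠ 0) {s : ℕ} {y : Fin s → A}
    (hy : Function.Injective ((Ideal.Quotient.mkₐ K P).comp (MvPolynomial.aeval y))) : s < g := by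
  have hindep : AlgebraicIndependent K y := fun p q e =>
    hy (congrArg (Ideal.Quotient.mkₐ K P) e)
  have htr : Transcendental (Algebra.adjoin K (Set.range y)) p₀ := fun halg => by
    obtain ⟨⟨c, hc⟩, hc0, hdvd⟩ := halg.exists_nonzero_dvd (mem_nonZeroDivisors_of_ne_zero hp0)
    rw [Algebra.adjoin_range_eq_range_aeval] at hc
    obtain ⟨q, hq⟩ := hc
    have hcP : c ∈ P := P.mem_of_dvd hdvd hp
    have hq0 : q = 0 := hy (by
      show Ideal.Quotient.mk P (MvPolynomial.aeval y q) = _
      rw [map_zero, Ideal.Quotient.eq_zero_iff_mem, show MvPolynomial.aeval y q = c from hq]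
      exact hcP)
    exact hc0 (Subtype.ext (hq.symm.trans (by rw [hq0]; exact map_zero _)))
  have h1 := ((hindep.option_iff_transcendental p₀).2 htr).lift_cardinalMk_le_trdeg
  set S := MvPolynomial (Fin g) K
  set T := Algebra.adjoin K (Set.range fun i : Fin g => algebraMap S A (MvPolynomial.X i))
  have : Algebra.IsAlgebraic T A := ⟨fun a => by
    obtain ⟨q, hq0, hq⟩ := isAlgebraic m hu a
    have hmem : ∀ z : S, IsScalarTower.toAlgHom K S A z ∈ T := fun z => by
      induction z using MvPolynomial.induction_on with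
      | C r => rw [← MvPolynomial.algebraMap_eq, AlgHom.commutes]; exact T.algebraMap_mem r
      | add p q hp hq => rw [map_add]; exact add_mem hp hq
      | mul_X p i hp => rw [map_mul]; exact mul_mem hp (Algebra.subset_adjoin ⟨i, rfl⟩)
    let σ : S →+* T := ((IsScalarTower.toAlgHom K S A).codRestrict T hmem).toRingHom
    have hσ : Function.Injective σ := fun p q e => injective_algebraMap m hu (by
      rw [IsScalarTower.algebraMap_apply S A (Localization.AtPrime m),
        IsScalarTower.algebraMap_apply S A (Localization.AtPrime m)]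
      exact congrArg _ (congrArg Subtype.val e))
    refine ⟨q.map σ, (Polynomial.map_ne_zero_iff hσ).2 hq0, ?_⟩
    rw [Polynomial.aeval_def, Polynomial.eval₂_map]
    exact hq⟩
  have h2 : Algebra.trdeg K A ≤ Cardinal.mk (Set.range fun i : Fin g =>
    algebraMap S A (MvPolynomial.X i)) := Algebra.IsAlgebraic.trdeg_le_cardinalMk K _
  have h3 := (h1.trans (Cardinal.lift_le.2 h2)).trans Cardinal.mk_range_le_lift
  simp at h3
  omega

omit [IsAlgClosed K] [IsDomain A] [Algebra.FiniteType K A] [Algebra.FormallySmooth K A] in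
/-- If `A / P` is finite over the polynomial ring in `z₀` then the fibre over the origin is
finite. -/
private theorem finite_quotient_fibre {P : Ideal A} {s : ℕ} (z₀ : Fin s → A)
    [Algebra (MvPolynomial (Fin s) K) (A ⧸ P)]
    (hmap : ∀ p, algebraMap (MvPolynomial (Fin s) K) (A ⧸ P) p =
      Ideal.Quotient.mk P (MvPolynomial.aeval z₀ p))
    [hfin : Module.Finite (MvPolynomial (Fin s) K) (A ⧸ P)] :
    Module.Finite K (A ⧸ (P ⊔ Ideal.span (Set.range z₀))) := by
  classical
  obtain ⟨G, hG⟩ := hfin
  let I : Ideal A := P ⊔ Ideal.span (Set.range z₀)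
  let φ : MvPolynomial (Fin s) K →ₐ[K] A := MvPolynomial.aeval z₀
  let π : A ⧸ P →ₐ[K] A ⧸ I := Ideal.Quotient.factorₐ K le_sup_left
  have hπ : ∀ (p : MvPolynomial (Fin s) K) z,
      π (p • z) = algebraMap K _ (MvPolynomial.eval 0 p) * π z := fun p z => by
    rw [Algebra.smul_def, map_mul, hmap]
    congr 1
    show ((π.comp (Ideal.Quotient.mkₐ K P)).comp φ) p =
      ((Algebra.ofId K _).comp (MvPolynomial.aeval 0)) p
    congr 1
    refine MvPolynomial.algHom_ext fun i => ?_
    simp only [AlgHom.comp_apply, φ, MvPolynomial.aeval_X, Pi.zero_apply, map_zero]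
    exact Ideal.Quotient.eq_zero_iff_mem.2 (Ideal.mem_sup_right (Ideal.subset_span ⟨i, rfl⟩))
  refine ⟨⟨G.image π, eq_top_iff.2 fun z htop => ?_⟩⟩
  clear htop
  obtain ⟨z, rfl⟩ := Ideal.Quotient.factor_surjective le_sup_left z
  have hz := hG.ge (Submodule.mem_top (x := z))
  show π z ∈ _
  induction hz using Submodule.span_induction with
  | mem w hw => exact Submodule.subset_span (Finset.mem_coe.2 (Finset.mem_image_of_mem _ hw))
  | zero => rw [map_zero]; exact zero_mem _
  | add v w _ _ hv hw => rw [map_add]; exact add_mem hv hw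
  | smul p w _ hw =>
    rw [hπ, ← Algebra.smul_def]
    exact Submodule.smul_mem _ _ hw

omit [IsAlgClosed K] [IsDomain A] [Algebra K A] [Algebra.FiniteType K A]
  [Algebra.FormallySmooth K A] in
/-- Finitely many maximal ideals contain an ideal with Artinian quotient. -/
private theorem finite_setOf_isMaximal_ge (I : Ideal A) [IsArtinianRing (A ⧸ I)] :
    {n : Ideal A | n.IsMaximal ∧ I ≤ n}.Finite := by
  refine ((IsArtinianRing.setOfPred_isMaximal_finite (A ⧸ I)).image
    (Ideal.comap (Ideal.Quotient.mk I))).subset fun n hn => ⟨n.map (Ideal.Quotient.mk I), ?_, ?_⟩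
  · exact hn.1.map_of_surjective_of_ker_le Ideal.Quotient.mk_surjective
      (by rw [Ideal.mk_ker]; exact hn.2)
  · rw [Ideal.comap_map_of_surjective _ Ideal.Quotient.mk_surjective, ← RingHom.ker_eq_comap_bot,
      Ideal.mk_ker, sup_eq_left.2 hn.2]

/-- Parameters for which `A / P` is finite and the point is alone in its fibre. -/
theorem exists_projection (m : Ideal A) [m.IsMaximal] {P : Ideal A} [P.IsPrime] (hP : P ≠ ⊥) :
    ∃ (g : ℕ) (x : Fin g → A), IsParam m x ∧
      ((Ideal.Quotient.mkₐ K P).comp (MvPolynomial.aeval x)).Finite ∧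
      ∀ n : Ideal A, n.IsMaximal → P ≤ n → (∀ i, x i ∈ n) → n = m := by
  classical
  have : IsNoetherianRing A := Algebra.FiniteType.isNoetherianRing K A
  obtain ⟨g, u, hu⟩ := exists_isParam m
  obtain ⟨p₀, hp, hp0⟩ := Submodule.exists_mem_ne_zero_of_ne_bot hP
  obtain ⟨s, y, hym, hyinj, hyfin⟩ :=
    exists_noether_coordinates (K := K) m (P := P) ‹P.IsPrime›.ne_top
  have hs : s < g := by
    let : Algebra (MvPolynomial (Fin g) K) A := (MvPolynomial.aeval u).toRingHom.toAlgebra
    have : IsScalarTower K (MvPolynomial (Fin g) K) A :=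
      IsScalarTower.of_algebraMap_eq fun r => ((MvPolynomial.aeval u).commutes r).symm
    refine noether_lt (K := K) m ?_ hp hp0 hyinj
    convert hu using 2 with i
    exact MvPolynomial.aeval_X u i
  obtain ⟨M, hM, hfin⟩ := exists_finite_exponent _ hyfin
    fun i : Fin s => Ideal.Quotient.mk P (u (Fin.castLE hs.le i))
  have hpow : ∀ i, y i ^ M ∈ m ^ 2 := fun i =>
    Ideal.pow_le_pow_right hM (Ideal.pow_mem_pow (hym i) M)
  let x₀ : Fin g → A := fun i => if h : (i : ℕ) < s then u i + y ⟨i, h⟩ ^ M else u i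
  -- the finitely many other points in the fibre
  let I : Ideal A := P ⊔ Ideal.span (Set.range fun i : Fin s => x₀ (Fin.castLE hs.le i))
  have hx₀ : ∀ i : Fin s, x₀ (Fin.castLE hs.le i) = u (Fin.castLE hs.le i) + y i ^ M := fun i => by
    simp only [x₀, Fin.val_castLE, i.2, dite_true]
  have hfinI : Module.Finite K (A ⧸ I) := by
    let φ : MvPolynomial (Fin s) K →ₐ[K] A := MvPolynomial.aeval fun i => x₀ (Fin.castLE hs.le i)
    let : Algebra (MvPolynomial (Fin s) K) (A ⧸ P) :=
      ((Ideal.Quotient.mkₐ K P).comp φ).toRingHom.toAlgebra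
    have : IsScalarTower K (MvPolynomial (Fin s) K) (A ⧸ P) :=
      IsScalarTower.of_algebraMap_eq fun r => (((Ideal.Quotient.mkₐ K P).comp φ).commutes r).symm
    have := hfin s (fun i => i) fun i => by
      show Ideal.Quotient.mk P (φ (MvPolynomial.X i)) = _
      simp [φ, hx₀]
    exact finite_quotient_fibre _ fun _ => rfl
  have : IsArtinianRing (A ⧸ I) := IsArtinianRing.of_finite K _
  let T : Set (Ideal A) := {n | n.IsMaximal ∧ n ≠ m ∧ I ≤ n}
  have hT : T.Finite := (finite_setOf_isMaximal_ge I).subset fun n hn => ⟨hn.1, hn.2.2⟩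
  have hco : m ^ 2 ⊔ ∏ n ∈ hT.toFinset, n = ⊤ := Ideal.sup_prod_eq_top fun n hn => by
    obtain ⟨hn1, hn2, -⟩ := hT.mem_toFinset.1 hn
    refine Ideal.pow_sup_eq_top (hn1.out.2 _ (lt_of_le_of_ne le_sup_right fun e => hn2 ?_))
    exact (‹m.IsMaximal›.eq_of_le hn1.ne_top (le_sup_left.trans e.symm.le)).symm
  obtain ⟨a, ha, b, hb, hab⟩ := Submodule.mem_sup.1 ((Ideal.eq_top_iff_one _).1 hco)
  let j₀ : Fin g := ⟨s, hs⟩
  let x : Fin g → A := fun i => if i = j₀ then u j₀ + a * (1 - u j₀) else x₀ i
  have hxlow : ∀ i : Fin s, x (Fin.castLE hs.le i) = x₀ (Fin.castLE hs.le i) := fun i =>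
    if_neg fun e => absurd (congrArg Fin.val e) (ne_of_lt i.2)
  refine ⟨g, x, hu.congr_sq m fun i => ?_, ?_, ?_⟩
  · by_cases h1 : i = j₀
    · subst h1
      simp only [x, if_true, add_sub_cancel_left]
      exact Ideal.mul_mem_right _ _ ha
    · simp only [x, if_neg h1, x₀]
      split
      · rw [add_sub_cancel_left]; exact hpow _
      · rw [sub_self]; exact zero_mem _
  · let φ : MvPolynomial (Fin g) K →ₐ[K] A ⧸ P :=
      (Ideal.Quotient.mkₐ K P).comp (MvPolynomial.aeval x)
    let : Algebra (MvPolynomial (Fin g) K) (A ⧸ P) := φ.toRingHom.toAlgebra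
    have : IsScalarTower K (MvPolynomial (Fin g) K) (A ⧸ P) :=
      IsScalarTower.of_algebraMap_eq fun r => (φ.commutes r).symm
    exact hfin g (Fin.castLE hs.le) fun i => by
      show Ideal.Quotient.mk P (MvPolynomial.aeval x (MvPolynomial.X (Fin.castLE hs.le i))) = _
      rw [MvPolynomial.aeval_X, hxlow, hx₀]
      simp
  · intro n hn hPn hxn
    by_contra hne
    have hIn : I ≤ n := sup_le hPn (Ideal.span_le.2 (by
      rintro _ ⟨i, rfl⟩
      show x₀ (Fin.castLE hs.le i) ∈ n
      rw [← hxlow]
      exact hxn _))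
    have hbn : b ∈ n :=
      Ideal.prod_le_inf.trans (Finset.inf_le (hT.mem_toFinset.2 ⟨hn, hne, hIn⟩)) hb
    refine hn.ne_top ((Ideal.eq_top_iff_one n).2 ?_)
    have hxj : u j₀ + a * (1 - u j₀) ∈ n := by simpa [x] using hxn j₀
    have : (1 : A) = (u j₀ + a * (1 - u j₀)) + b * (1 - u j₀) := by
      linear_combination (u j₀ - 1) * hab
    rw [this]
    exact add_mem hxj (Ideal.mul_mem_right _ _ hbn)

end Fermat.Agent.AbVar.Local

end
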