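import Fermat.Agent.AbVar.Factorial.Projection

/-!
# The local ring at a rational point of a smooth affine variety is factorial

For a smooth domain `A` over an algebraically closed field the localisations at maximal ideals are
factorial (`Local.uniqueFactorizationMonoid`) and those at all primes are integrally closed
(`Local.isIntegrallyClosed_atPrime`). A minimal nonzero prime is the extension of a prime of the
polynomial ring in suitable parameters, which is principal.
-/

set_option autoImplicit false

universe u

noncomputable section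

namespace Fermat.Agent.AbVar.Local

variable {K : Type u} [Field K] [IsAlgClosed K] {A : Type u} [CommRing A] [IsDomain A] [Algebra K A]
  [Algebra.FiniteType K A] [Algebra.FormallySmooth K A] (m : Ideal A) [m.IsMaximal]

section Fixed

variable {g : ℕ} [Algebra (MvPolynomial (Fin g) K) A] [IsScalarTower K (MvPolynomial (Fin g) K) A]
variable (h : IsParam m fun i : Fin g => algebraMap (MvPolynomial (Fin g) K) A (MvPolynomial.X i))

include h

/-! ### Denominators in the polynomial ring -/

omit [IsDomain A] [IsAlgClosed K] [Algebra K A] [Algebra.FiniteType K A]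
  [Algebra.FormallySmooth K A]
  [IsScalarTower K (MvPolynomial (Fin g) K) A] in
/-- Denominators can be taken in the polynomial ring, modulo a prime with finite coordinate ring
which is alone in its fibre. -/
private theorem exists_denominator {P : Ideal (Localization.AtPrime m)} [P.IsPrime]
    (hfin : Module.Finite (MvPolynomial (Fin g) K)
      (A ⧸ P.comap (algebraMap A (Localization.AtPrime m))))
    (hiso : ∀ n : Ideal A, n.IsMaximal → P.comap (algebraMap A (Localization.AtPrime m)) ≤ n →
      (∀ i, algebraMap (MvPolynomial (Fin g) K) A (MvPolynomial.X i) ∈ n) → n = m)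
    (a : A) (ha : a ∉ m) :
    ∃ (t : MvPolynomial (Fin g) K) (b : A), t ∉ m.comap (algebraMap (MvPolynomial (Fin g) K) A) ∧
      a * b - algebraMap (MvPolynomial (Fin g) K) A t ∈
        P.comap (algebraMap A (Localization.AtPrime m)) := by
  classical
  set S := MvPolynomial (Fin g) K
  set R := Localization.AtPrime m
  set Pb := P.comap (algebraMap A R) with hPb
  set B := A ⧸ Pb
  set yS : Ideal S := m.comap (algebraMap S A)
  have : yS.IsPrime := Ideal.IsPrime.comap _
  have hX : ∀ i, MvPolynomial.X i ∈ yS := fun i => h.1 i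
  let Q := B ⧸ Ideal.span {Ideal.Quotient.mk Pb a}
  -- Off `m` nothing lies over the origin in `V(P)`, so `a`, `P` and the coordinates generate `1`.
  have hgen : (⊤ : Ideal A) ≤
      Ideal.span {a} ⊔ Pb ⊔ Ideal.span (Set.range fun i => algebraMap S A (MvPolynomial.X i)) := by
    by_contra hne
    obtain ⟨n, hn, hle⟩ := Ideal.exists_le_maximal _ (fun e => hne e.ge)
    have := hiso n hn (le_sup_right.trans (le_sup_left.trans hle)) fun i =>
      hle (Ideal.mem_sup_right (Ideal.subset_span ⟨i, rfl⟩))
    subst this
    exact ha (hle (Ideal.mem_sup_left (Ideal.mem_sup_left (Ideal.mem_span_singleton_self a))))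
  obtain ⟨w, hw, v, hv, hwv⟩ := Submodule.mem_sup.1 (hgen (Submodule.mem_top (x := 1)))
  obtain ⟨c, hc⟩ := Ideal.mem_span_range_iff_exists_fun.1 hv
  obtain ⟨w₁, hw₁, w₂, hw₂, hw12⟩ := Submodule.mem_sup.1 hw
  obtain ⟨b₁, rfl⟩ := Ideal.mem_span_singleton'.1 hw₁
  let π : A → Q := fun z => Ideal.Quotient.mk _ (Ideal.Quotient.mk Pb z)
  have hπw : π w = 0 := by
    simp only [π, ← hw12, map_add, map_mul, Ideal.Quotient.eq_zero_iff_mem.2 hw₂,
      Ideal.Quotient.eq_zero_iff_mem.2 (Ideal.mem_span_singleton_self _), mul_zero, add_zero]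
  -- Hence the finite `S`-module `B / a` equals its product with the ideal of the origin.
  have hle : (⊤ : Submodule S Q) ≤ yS • ⊤ := by
    intro z _
    have : z = ∑ i, (MvPolynomial.X i : S) • (π (c i) * z) := by
      have h1 : π 1 * z = z := by simp [π]
      conv_lhs => rw [← h1, ← hwv, ← hc]
      simp only [π, map_add, map_sum, map_mul] at hπw ⊢
      rw [hπw, zero_add, Finset.sum_mul]
      refine Finset.sum_congr rfl fun i _ => ?_
      refine Eq.trans ?_ (Algebra.smul_def (A := Q) (MvPolynomial.X i : S) (π (c i) * z)).symm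
      rw [IsScalarTower.algebraMap_apply S B Q, IsScalarTower.algebraMap_apply S A B]
      show _ = Ideal.Quotient.mk _ (Ideal.Quotient.mk Pb (algebraMap S A (MvPolynomial.X i))) * _
      ring
    rw [this]
    exact sum_mem fun i _ => Submodule.smul_mem_smul (hX i) Submodule.mem_top
  have : Module.Finite S Q := Module.Finite.of_surjective
    ((Ideal.Quotient.mkₐ S (Ideal.span {Ideal.Quotient.mk Pb a})).toLinearMap)
    (Ideal.Quotient.mkₐ_surjective S _)
  -- Nakayama gives `t ∉ yS` killing it, that is a multiple of `a` modulo `P`.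
  obtain ⟨t, ht1, ht2⟩ := Submodule.exists_sub_one_mem_and_smul_eq_zero_of_fg_of_le_smul yS ⊤
    Module.Finite.fg_top hle
  refine ⟨t, ?_⟩
  have h2 : Ideal.Quotient.mk Pb (algebraMap S A t) ∈ Ideal.span {Ideal.Quotient.mk Pb a} := by
    have := (Algebra.smul_def t (1 : Q)).symm.trans (ht2 1 Submodule.mem_top)
    rwa [mul_one, IsScalarTower.algebraMap_apply S B Q,
      IsScalarTower.algebraMap_apply S A B, Ideal.Quotient.algebraMap_eq,
      Ideal.Quotient.algebraMap_eq, Ideal.Quotient.eq_zero_iff_mem] at this
  obtain ⟨b, hb⟩ := Ideal.mem_span_singleton'.1 h2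
  obtain ⟨b, rfl⟩ := Ideal.Quotient.mk_surjective b
  refine ⟨b, fun ht => yS.ne_top_iff_one.1 ‹yS.IsPrime›.ne_top (by simpa using sub_mem ht ht1), ?_⟩
  rw [← map_mul, Ideal.Quotient.eq] at hb
  rwa [mul_comm]

omit [IsDomain A] [IsAlgClosed K] [Algebra K A] [Algebra.FiniteType K A]
  [Algebra.FormallySmooth K A]
  [IsScalarTower K (MvPolynomial (Fin g) K) A] in
/-- Modulo such a prime, elements of the local ring get denominators in the polynomial ring. -/
private theorem exists_denominator_mk {P : Ideal (Localization.AtPrime m)} [P.IsPrime]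
    (hfin : Module.Finite (MvPolynomial (Fin g) K)
      (A ⧸ P.comap (algebraMap A (Localization.AtPrime m))))
    (hiso : ∀ n : Ideal A, n.IsMaximal → P.comap (algebraMap A (Localization.AtPrime m)) ≤ n →
      (∀ i, algebraMap (MvPolynomial (Fin g) K) A (MvPolynomial.X i) ∈ n) → n = m) :
    ∀ r : Localization.AtPrime m,
      ∃ (t : MvPolynomial (Fin g) K) (a : A), t ∉ m.comap (algebraMap (MvPolynomial (Fin g) K) A) ∧
        algebraMap (MvPolynomial (Fin g) K) (Localization.AtPrime m ⧸ P) t *
          Ideal.Quotient.mk P r =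
        Ideal.Quotient.mk P (algebraMap A (Localization.AtPrime m) a) := by
  set S := MvPolynomial (Fin g) K
  set R := Localization.AtPrime m
  intro r
  obtain ⟨⟨a, d⟩, had⟩ := IsLocalization.surj m.primeCompl r
  obtain ⟨t, b, ht, htb⟩ := exists_denominator m h hfin hiso d d.2
  refine ⟨t, a * b, ht, ?_⟩
  have hdt : Ideal.Quotient.mk P (algebraMap A R ((d : A) * b)) =
      Ideal.Quotient.mk P (algebraMap S R t) := by
    rw [Ideal.Quotient.eq, IsScalarTower.algebraMap_apply S A R, ← map_sub]
    exact htb
  rw [IsScalarTower.algebraMap_apply S R (R ⧸ P), Ideal.Quotient.algebraMap_eq, ← hdt, ← map_mul]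
  refine congrArg _ ?_
  rw [map_mul, map_mul, ← had]
  ring

omit [IsDomain A] [Algebra.FormallySmooth K A] in
/-- The local ring of the polynomial ring surjects onto the local ring modulo such a prime. -/
private theorem surjective_mk_localRingHom {P : Ideal (Localization.AtPrime m)} [P.IsPrime]
    (hfin : Module.Finite (MvPolynomial (Fin g) K)
      (A ⧸ P.comap (algebraMap A (Localization.AtPrime m))))
    (hiso : ∀ n : Ideal A, n.IsMaximal → P.comap (algebraMap A (Localization.AtPrime m)) ≤ n →
      (∀ i, algebraMap (MvPolynomial (Fin g) K) A (MvPolynomial.X i) ∈ n) → n = m) :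
    Function.Surjective ((Ideal.Quotient.mk P).comp
      (Localization.localRingHom (m.comap (algebraMap (MvPolynomial (Fin g) K) A)) m
        (algebraMap (MvPolynomial (Fin g) K) A) rfl)) := by
  classical
  set S := MvPolynomial (Fin g) K
  set R := Localization.AtPrime m
  set Pb := P.comap (algebraMap A R) with hPb
  set B := A ⧸ Pb
  set yS : Ideal S := m.comap (algebraMap S A)
  have : yS.IsPrime := Ideal.IsPrime.comap _
  let T := Localization.AtPrime yS
  have hX : ∀ i, MvPolynomial.X i ∈ yS := fun i => h.1 i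
  let C := R ⧸ P
  -- denominators in `C` can be taken in the polynomial ring
  have hden := exists_denominator_mk m h hfin hiso
  -- `C` is an algebra over the local ring `T` of the polynomial ring
  let ρ₀ : T →+* R := Localization.localRingHom yS m (algebraMap S A) rfl
  let ρ : T →+* C := (Ideal.Quotient.mk P).comp ρ₀
  have hρS : ∀ t : S, ρ₀ (algebraMap S T t) = algebraMap S R t := fun t => by
    rw [Localization.localRingHom_to_map, ← IsScalarTower.algebraMap_apply]
  show Function.Surjective ρ
  let : Algebra T C := ρ.toAlgebra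
  have : IsScalarTower S T C := IsScalarTower.of_algebraMap_eq fun t => by
    show _ = Ideal.Quotient.mk P (ρ₀ (algebraMap S T t))
    rw [hρS, IsScalarTower.algebraMap_apply S R C, Ideal.Quotient.algebraMap_eq]
  obtain ⟨G, hG⟩ := hfin
  let ψ : B →+* C := Ideal.Quotient.lift Pb ((Ideal.Quotient.mk P).comp (algebraMap A R))
    fun a ha => Ideal.Quotient.eq_zero_iff_mem.2 ha
  have hψ : ∀ (t : S) (b : B), ψ (t • b) = algebraMap S T t • ψ b := fun t b => by
    refine (congrArg ψ (Algebra.smul_def t b)).trans
      ((map_mul ψ _ _).trans (Eq.trans ?_ (Algebra.smul_def (algebraMap S T t) (ψ b)).symm))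
    congr 1
    rw [← IsScalarTower.algebraMap_apply S T C, IsScalarTower.algebraMap_apply S A B,
        IsScalarTower.algebraMap_apply S R C,
      Ideal.Quotient.algebraMap_eq, Ideal.Quotient.algebraMap_eq,
        IsScalarTower.algebraMap_apply S A R]
    rfl
  -- it is finite, spanned by the images of the generators of `B`
  have hfinC : Module.Finite T C := by
    refine ⟨⟨G.image ψ, eq_top_iff.2 fun z hz => ?_⟩⟩
    clear hz
    obtain ⟨r, rfl⟩ := Ideal.Quotient.mk_surjective z
    obtain ⟨t, a, ht, hta⟩ := hden r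
    have hu := IsLocalization.map_units T (⟨t, ht⟩ : yS.primeCompl)
    obtain ⟨u, hu⟩ := hu
    have : Ideal.Quotient.mk P r = (↑u⁻¹ : T) • ψ (Ideal.Quotient.mk Pb a) := by
      rw [show ψ (Ideal.Quotient.mk Pb a) = Ideal.Quotient.mk P (algebraMap A R a) from rfl, ← hta,
        IsScalarTower.algebraMap_apply S T C, ← Algebra.smul_def, smul_smul, ← hu, Units.inv_mul,
        one_smul]
    rw [this]
    refine Submodule.smul_mem _ _ ?_
    have ha := hG.ge (Submodule.mem_top (x := Ideal.Quotient.mk Pb a))
    generalize Ideal.Quotient.mk Pb a = b at ha ⊢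
    induction ha using Submodule.span_induction with
    | mem w hw => exact Submodule.subset_span (Finset.mem_coe.2 (Finset.mem_image_of_mem _ hw))
    | zero => rw [map_zero]; exact zero_mem _
    | add v w _ _ hv hw => rw [map_add]; exact add_mem hv hw
    | smul t w _ hw => rw [hψ]; exact Submodule.smul_mem _ _ hw
  -- modulo the maximal ideal of `T` it is spanned by `1`, so Nakayama applies
  have hle : (⊤ : Submodule T C) ≤
      Submodule.span T {1} ⊔ IsLocalRing.maximalIdeal T • ⊤ := by
    intro z _
    obtain ⟨r, rfl⟩ := Ideal.Quotient.mk_surjective z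
    obtain ⟨c, hc⟩ := exists_const_atPrime (K := K) m r
    obtain ⟨d, hd⟩ := Ideal.mem_span_range_iff_exists_fun.1 (h.2.1 hc)
    refine Submodule.mem_sup.2 ⟨algebraMap K T c • 1,
      Submodule.smul_mem _ _ (Submodule.subset_span rfl),
      ∑ i, algebraMap S T (MvPolynomial.X i) • Ideal.Quotient.mk P (d i),
      sum_mem fun i _ => Submodule.smul_mem_smul ?_ Submodule.mem_top, ?_⟩
    · rw [← Localization.AtPrime.map_eq_maximalIdeal]
      exact Ideal.mem_map_of_mem _ (hX i)
    · simp only [Algebra.smul_def, mul_one]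
      rw [IsScalarTower.algebraMap_apply K S T, ← IsScalarTower.algebraMap_apply S T C,
        IsScalarTower.algebraMap_apply S R C, Ideal.Quotient.algebraMap_eq,
        ← IsScalarTower.algebraMap_apply K S R]
      have e : r = algebraMap K R c + ∑ i, algebraMap S R (MvPolynomial.X i) * d i := by
        rw [show (∑ i, algebraMap S R (MvPolynomial.X i) * d i) = r - algebraMap K R c by
          rw [← hd]
          exact Finset.sum_congr rfl fun i _ => by
            rw [mul_comm, IsScalarTower.algebraMap_apply S A R]]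
        ring
      conv_rhs => rw [e, map_add, map_sum]
      refine congrArg _ (Finset.sum_congr rfl fun i _ => ?_)
      rw [map_mul]
      exact congrArg (· * _) ((IsScalarTower.algebraMap_apply S T C _).symm.trans
        (IsScalarTower.algebraMap_apply S R C _))
  have htop := Submodule.le_of_le_smul_of_le_jacobson_bot Module.Finite.fg_top
    (IsLocalRing.jacobson_eq_maximalIdeal ⊥ bot_ne_top).ge hle
  intro z
  obtain ⟨t, ht⟩ := Submodule.mem_span_singleton.1 (htop (Submodule.mem_top (x := z)))
  exact ⟨t, by rw [← ht, Algebra.smul_def, mul_one]; rfl⟩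

omit h m [IsAlgClosed K] [Algebra.FiniteType K A] [Algebra.FormallySmooth K A] in
/-- Over a formally unramified extension, a quotient map of local rings with a section compatible
with the base is an isomorphism. -/
private theorem le_of_quotient_section {S R : Type u} [CommRing S] [CommRing R] [Algebra S R]
    [Algebra.FormallyUnramified S R] [IsNoetherianRing R] [IsLocalRing R] {F P : Ideal R}
    (hP : P ≠ ⊤) (hFP : F ≤ P) (σ : R ⧸ P →+* R ⧸ F)
    (hres : ∀ z, Ideal.Quotient.factor hFP (σ z) = z)
    (hS : ∀ t : S, σ (Ideal.Quotient.mk P (algebraMap S R t)) =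
      Ideal.Quotient.mk F (algebraMap S R t)) :
    P ≤ F := by
  let J : Ideal (R ⧸ F) := RingHom.ker (Ideal.Quotient.factor hFP)
  have hmem : ∀ r, Ideal.Quotient.mk F r - σ (Ideal.Quotient.mk P r) ∈ J := fun r => by
    rw [RingHom.mem_ker, map_sub, hres, Ideal.Quotient.factor_mk, sub_self]
  -- `r ↦ r - σ r` is an `S`-derivation into the cotangent module of `J`, hence zero; so
  -- `J ≤ J ^ 2` and `J = ⊥` by Nakayama.
  let δ₀ : R → J.Cotangent := fun r => J.toCotangent ⟨_, hmem r⟩
  have hadd : ∀ r r', δ₀ (r + r') = δ₀ r + δ₀ r' := fun r r' => by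
    simp only [δ₀, ← map_add]
    refine congrArg _ (Subtype.ext ?_)
    show _ = _ + _
    simp only [map_add]
    ring
  have hmul : ∀ r r', δ₀ (r * r') = r • δ₀ r' + r' • δ₀ r := fun r r' => by
    rw [← algebraMap_smul (R ⧸ F) r, ← algebraMap_smul (R ⧸ F) r']
    simp only [δ₀, ← map_smul, ← map_add]
    rw [Ideal.toCotangent_eq]
    show Ideal.Quotient.mk F (r * r') - σ (Ideal.Quotient.mk P (r * r')) -
      (Ideal.Quotient.mk F r * (Ideal.Quotient.mk F r' - σ (Ideal.Quotient.mk P r')) +
        Ideal.Quotient.mk F r' * (Ideal.Quotient.mk F r - σ (Ideal.Quotient.mk P r))) ∈ J ^ 2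
    simp only [map_mul]
    rw [show Ideal.Quotient.mk F r * Ideal.Quotient.mk F r' -
        σ (Ideal.Quotient.mk P r) * σ (Ideal.Quotient.mk P r') -
      (Ideal.Quotient.mk F r * (Ideal.Quotient.mk F r' - σ (Ideal.Quotient.mk P r')) +
        Ideal.Quotient.mk F r' * (Ideal.Quotient.mk F r - σ (Ideal.Quotient.mk P r))) =
      -((Ideal.Quotient.mk F r - σ (Ideal.Quotient.mk P r)) *
        (Ideal.Quotient.mk F r' - σ (Ideal.Quotient.mk P r'))) by ring, sq]
    exact neg_mem (Ideal.mul_mem_mul (hmem r) (hmem r'))
  have hconst : ∀ t : S, δ₀ (algebraMap S R t) = 0 := fun t => by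
    show J.toCotangent _ = 0
    rw [Ideal.toCotangent_eq_zero]
    show Ideal.Quotient.mk F (algebraMap S R t) - σ (Ideal.Quotient.mk P (algebraMap S R t)) ∈ J ^ 2
    rw [hS, sub_self]
    exact zero_mem _
  let δl : R →ₗ[S] J.Cotangent :=
    { toFun := δ₀
      map_add' := hadd
      map_smul' := fun t r => by
        rw [Algebra.smul_def, hmul, hconst, smul_zero, add_zero, algebraMap_smul,
          RingHom.id_apply] }
  let δ : Derivation S R J.Cotangent := Derivation.mk' δl hmul
  have hδ : ∀ r, δ r = 0 := fun r => by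
    rw [← Derivation.liftKaehlerDifferential_comp_D δ r,
      Subsingleton.elim (KaehlerDifferential.D S R r) 0, map_zero]
  have hJ : J ≤ J * J := by
    intro j hj
    obtain ⟨r, rfl⟩ := Ideal.Quotient.mk_surjective j
    have := hδ r
    change J.toCotangent _ = 0 at this
    rw [Ideal.toCotangent_eq_zero] at this
    change Ideal.Quotient.mk F r - σ (Ideal.Quotient.mk P r) ∈ J ^ 2 at this
    rw [RingHom.mem_ker, Ideal.Quotient.factor_mk] at hj
    rwa [hj, map_zero, sub_zero, sq] at this
  have hFm : F ≠ ⊤ := fun e => hP (top_le_iff.1 (e ▸ hFP))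
  have : Nontrivial (R ⧸ F) := Ideal.Quotient.nontrivial_iff.2 hFm
  have : IsLocalRing (R ⧸ F) :=
    IsLocalRing.of_surjective' (Ideal.Quotient.mk F) Ideal.Quotient.mk_surjective
  have : Nontrivial (R ⧸ P) := Ideal.Quotient.nontrivial_iff.2 hP
  have hJtop : J ≠ ⊤ := RingHom.ker_ne_top _
  have hJ0 : J = ⊥ := Submodule.eq_bot_of_le_smul_of_le_jacobson_bot J J
    (IsNoetherian.noetherian J) hJ
    ((IsLocalRing.le_maximalIdeal hJtop).trans
      (IsLocalRing.jacobson_eq_maximalIdeal ⊥ bot_ne_top).ge)
  intro r hr
  have : Ideal.Quotient.mk F r ∈ J := by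
    rw [RingHom.mem_ker, Ideal.Quotient.factor_mk]
    exact Ideal.Quotient.eq_zero_iff_mem.2 hr
  rw [hJ0, Ideal.mem_bot] at this
  exact Ideal.Quotient.eq_zero_iff_mem.1 this

/-! ### Primes with principal contraction -/

omit [IsDomain A] in
/-- A prime of the local ring which contracts to a principal prime of the polynomial ring, with
coordinate ring finite and alone in its fibre, is principal. -/
theorem isPrincipal_of_projection {P : Ideal (Localization.AtPrime m)} [P.IsPrime]
    (hfin : Module.Finite (MvPolynomial (Fin g) K)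
      (A ⧸ P.comap (algebraMap A (Localization.AtPrime m))))
    (hiso : ∀ n : Ideal A, n.IsMaximal → P.comap (algebraMap A (Localization.AtPrime m)) ≤ n →
      (∀ i, algebraMap (MvPolynomial (Fin g) K) A (MvPolynomial.X i) ∈ n) → n = m)
    : ∀ f : MvPolynomial (Fin g) K,
      P.comap (algebraMap (MvPolynomial (Fin g) K) (Localization.AtPrime m)) = Ideal.span {f} →
      P = Ideal.span {algebraMap (MvPolynomial (Fin g) K) (Localization.AtPrime m) f} := by
  classical
  set S := MvPolynomial (Fin g) K
  set R := Localization.AtPrime m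
  intro f hf
  have : IsNoetherianRing A := Algebra.FiniteType.isNoetherianRing K A
  have : IsNoetherianRing R := IsLocalization.isNoetherianRing m.primeCompl R inferInstance
  set yS : Ideal S := m.comap (algebraMap S A)
  have : yS.IsPrime := Ideal.IsPrime.comap _
  let T := Localization.AtPrime yS
  let C := R ⧸ P
  let ρ₀ : T →+* R := Localization.localRingHom yS m (algebraMap S A) rfl
  let ρ : T →+* C := (Ideal.Quotient.mk P).comp ρ₀
  have hρS : ∀ t : S, ρ₀ (algebraMap S T t) = algebraMap S R t := fun t => by
    rw [Localization.localRingHom_to_map, ← IsScalarTower.algebraMap_apply]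
  have hρ : Function.Surjective ρ := surjective_mk_localRingHom m h hfin hiso
  -- the kernel is generated by the equation
  set F := Ideal.span {algebraMap S R f}
  have hFP : F ≤ P := (Ideal.span_singleton_le_iff_mem _).2
    (show f ∈ P.comap (algebraMap S R) from hf ▸ Ideal.mem_span_singleton_self f)
  have hkerρ : RingHom.ker ρ ≤ RingHom.ker ((Ideal.Quotient.mk F).comp ρ₀) := by
    intro z hz
    obtain ⟨a, t, rfl⟩ := IsLocalization.exists_mk'_eq yS.primeCompl z
    have ha : ρ₀ (algebraMap S T a) ∈ P := by
      rw [← IsLocalization.mk'_spec T a t, map_mul]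
      exact P.mul_mem_right _ (Ideal.Quotient.eq_zero_iff_mem.1 hz)
    rw [hρS] at ha
    obtain ⟨b, rfl⟩ := Ideal.mem_span_singleton'.1 (hf ▸ ha : a ∈ Ideal.span {f})
    rw [RingHom.mem_ker, RingHom.comp_apply, Ideal.Quotient.eq_zero_iff_mem,
      IsLocalization.mk'_eq_mul_mk'_one, map_mul, hρS, map_mul]
    exact F.mul_mem_right _ (F.mul_mem_left _ (Ideal.mem_span_singleton_self _))
  let σ : C →+* R ⧸ F := RingHom.liftOfSurjective ρ hρ ⟨_, hkerρ⟩
  have hσ : ∀ z, σ (ρ z) = Ideal.Quotient.mk F (ρ₀ z) := fun z =>
    RingHom.liftOfRightInverse_comp_apply _ _ _ _ z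
  have hres : ∀ z, Ideal.Quotient.factor hFP (σ z) = z := fun z => by
    obtain ⟨z, rfl⟩ := hρ z
    rw [hσ]; rfl
  have hS : ∀ t : S, σ (Ideal.Quotient.mk P (algebraMap S R t)) =
      Ideal.Quotient.mk F (algebraMap S R t) :=
    fun t => by rw [← hρS t]; exact hσ _
  have := formallyUnramified m h
  exact le_antisymm (le_of_quotient_section ‹P.IsPrime›.ne_top hFP σ hres hS) hFP

/-- The contraction of a minimal nonzero prime to the polynomial ring is principal. -/
theorem exists_comap_eq_span {P : Ideal (Localization.AtPrime m)} [P.IsPrime] (hP : P ≠ ⊥)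
    (hmin : ∀ Q : Ideal (Localization.AtPrime m), Q.IsPrime → Q < P → Q = ⊥) :
    ∃ f, P.comap (algebraMap (MvPolynomial (Fin g) K) (Localization.AtPrime m)) =
      Ideal.span {f} := by
  set S := MvPolynomial (Fin g) K
  set R := Localization.AtPrime m
  have := flat m h
  have hinj := injective_algebraMap m h
  set q := P.comap (algebraMap S R) with hq
  have hq0 : q ≠ ⊥ := by
    obtain ⟨r, hr, hr0⟩ := Submodule.exists_mem_ne_zero_of_ne_bot hP
    obtain ⟨⟨a, d⟩, had⟩ := IsLocalization.surj m.primeCompl r
    have had' : r * algebraMap A R (d : A) = algebraMap A R a := had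
    have ha : algebraMap A R a ∈ P := had' ▸ P.mul_mem_right _ hr
    have ha0 : a ≠ 0 := fun e => by
      rw [e, map_zero] at had'
      exact hr0 ((IsLocalization.map_units R d).mul_left_eq_zero.1 had')
    obtain ⟨c, hc0, hc⟩ :=
      (isAlgebraic m h a).exists_nonzero_dvd (mem_nonZeroDivisors_of_ne_zero ha0)
    intro hbot
    refine hc0 (Ideal.mem_bot.1 (hbot ▸ (?_ : c ∈ q)))
    rw [hq, Ideal.mem_comap, IsScalarTower.algebraMap_apply S A R]
    exact P.mem_of_dvd (map_dvd _ hc) ha
  obtain ⟨f, hfq, hf⟩ := (inferInstance : q.IsPrime).exists_mem_prime_of_ne_bot hq0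
  refine ⟨f, (((Ideal.span_singleton_le_iff_mem _).2 hfq).eq_of_not_lt fun hlt => ?_).symm⟩
  have : (Ideal.span {f}).IsPrime := (Ideal.span_singleton_prime hf.ne_zero).2 hf
  have : P.LiesOver q := ⟨rfl⟩
  obtain ⟨Q, hQP, hQ, hQf⟩ := Ideal.exists_ideal_lt_liesOver_of_lt (R := S) P hlt
  have hQ0 : Q = ⊥ := hmin Q hQ hQP
  have hf0 : f ∈ Q.comap (algebraMap S R) := hQf.over.le (Ideal.mem_span_singleton_self f)
  rw [hQ0, Ideal.mem_comap, Ideal.mem_bot] at hf0
  exact hf.ne_zero (hinj (hf0.trans (map_zero _).symm))

end Fixed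

variable (K)

include K

/-! ### Factoriality and normality -/

/-- Minimal nonzero primes of the local ring are principal. -/
theorem isPrincipal_of_minimal {P : Ideal (Localization.AtPrime m)} [P.IsPrime] (hP : P ≠ ⊥)
    (hmin : ∀ Q : Ideal (Localization.AtPrime m), Q.IsPrime → Q < P → Q = ⊥) : P.IsPrincipal := by
  set Pb := P.comap (algebraMap A (Localization.AtPrime m))
  have hPb : Pb ≠ ⊥ := fun e => hP (by
    rw [← IsLocalization.map_under m.primeCompl (Localization.AtPrime m) P]
    exact (congrArg (Ideal.map _) e).trans Ideal.map_bot)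
  obtain ⟨g, x, hx, hfin, hiso⟩ := exists_projection (K := K) m hPb
  let : Algebra (MvPolynomial (Fin g) K) A := (MvPolynomial.aeval x).toRingHom.toAlgebra
  have : IsScalarTower K (MvPolynomial (Fin g) K) A :=
    IsScalarTower.of_algebraMap_eq fun r => ((MvPolynomial.aeval x).commutes r).symm
  have hX : ∀ i, algebraMap (MvPolynomial (Fin g) K) A (MvPolynomial.X i) = x i := fun i =>
    MvPolynomial.aeval_X x i
  have h : IsParam m fun i : Fin g => algebraMap (MvPolynomial (Fin g) K) A (MvPolynomial.X i) := by
    simpa only [hX] using hx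
  obtain ⟨f, hf⟩ := exists_comap_eq_span m h hP hmin
  refine ⟨algebraMap (MvPolynomial (Fin g) K) (Localization.AtPrime m) f,
    isPrincipal_of_projection m h ?_ (fun n hn hPn hxn => hiso n hn hPn fun i => hX i ▸ hxn i) f hf⟩
  exact RingHom.finite_algebraMap.1 hfin

/-- The local ring at a closed point is factorial. -/
theorem uniqueFactorizationMonoid : UniqueFactorizationMonoid (Localization.AtPrime m) := by
  have : IsNoetherianRing A := Algebra.FiniteType.isNoetherianRing K A
  have : IsDomain (Localization.AtPrime m) :=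
    IsLocalization.isDomain_localization m.primeCompl_le_nonZeroDivisors
  have : IsNoetherianRing (Localization.AtPrime m) :=
    IsLocalization.isNoetherianRing m.primeCompl _ inferInstance
  refine UniqueFactorizationMonoid.iff_exists_prime_mem_of_isPrime.2 fun Q hQ hQp => ?_
  obtain ⟨a, ha, ha0⟩ := Submodule.exists_mem_ne_zero_of_ne_bot hQ
  obtain ⟨P, hP, hPQ⟩ := Ideal.exists_minimalPrimes_le ((Ideal.span_singleton_le_iff_mem _).2 ha)
  have := hP.1.1
  have hP0 : P ≠ ⊥ := fun e => ha0 (Ideal.mem_bot.1 (e ▸ hP.1.2 (Ideal.mem_span_singleton_self a)))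
  have hht := Ideal.height_le_one_of_isPrincipal_of_mem_minimalPrimes _ P hP
  have hmin : ∀ Q' : Ideal (Localization.AtPrime m), Q'.IsPrime → Q' < P →
      Q' = ⊥ := fun Q' hQ' hlt => by
    have h1 : Q'.height < 1 := Ideal.height_le_iff.1 hht Q' hQ' hlt
    exact Ideal.height_eq_zero_iff_eq_bot.1 (Order.lt_one_iff.1 h1)
  obtain ⟨p, hp⟩ := (isPrincipal_of_minimal K m hP0 hmin).principal
  have hp' : P = Ideal.span {p} := hp
  have hp0 : p ≠ 0 := fun e => hP0 (by rw [hp', e, Ideal.span_singleton_eq_bot])
  exact ⟨p, hPQ (hp' ▸ Ideal.mem_span_singleton_self p),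
    (Ideal.span_singleton_prime hp0).1 (hp' ▸ this)⟩

/-- Local rings at all points are integrally closed. -/
theorem isIntegrallyClosed_atPrime (p : Ideal A) [p.IsPrime] :
    IsIntegrallyClosed (Localization.AtPrime p) := by
  obtain ⟨n, hn, hpn⟩ := Ideal.exists_le_maximal p ‹p.IsPrime›.ne_top
  have : UniqueFactorizationMonoid (Localization.AtPrime n) := uniqueFactorizationMonoid K n
  have : IsDomain (Localization.AtPrime n) :=
    IsLocalization.isDomain_localization n.primeCompl_le_nonZeroDivisors
  let : Algebra (Localization.AtPrime n) (Localization.AtPrime p) :=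
    IsLocalization.localizationAlgebraOfSubmonoidLe _ _ n.primeCompl p.primeCompl
      (fun z (hz : z ∈ n.primeCompl) hzp => hz (hpn hzp))
  have : IsScalarTower A (Localization.AtPrime n) (Localization.AtPrime p) :=
    IsLocalization.localization_isScalarTower_of_submonoid_le _ _ n.primeCompl p.primeCompl
      (fun z (hz : z ∈ n.primeCompl) hzp => hz (hpn hzp))
  have : IsLocalization (Algebra.algebraMapSubmonoid (Localization.AtPrime n) p.primeCompl)
      (Localization.AtPrime p) :=
    IsLocalization.isLocalization_of_submonoid_le _ _ n.primeCompl p.primeCompl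
      (fun z (hz : z ∈ n.primeCompl) hzp => hz (hpn hzp))
  exact isIntegrallyClosed_of_isLocalization (Localization.AtPrime p)
    (Algebra.algebraMapSubmonoid (Localization.AtPrime n) p.primeCompl)
    (map_le_nonZeroDivisors_of_injective _
      (IsLocalization.injective _ n.primeCompl_le_nonZeroDivisors)
      p.primeCompl_le_nonZeroDivisors)

end Fermat.Agent.AbVar.Local

end
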